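import Fermat.Agent.S38.P3.Defs
import Fermat.Agent.RED.H36_AllRed

/-!
# S38 at `p = 3`, leaf NE (helper57): `stmt_NE_of : Stmt_NE0 → Stmt_NE`

`q ∤ M`, `r ≡ 2 mod 3` a prime divisor of `M`, `z` a zero of `j~` in the reduced field of level
`M` (characteristic `q`).  By the conservation law (`RED.H36.stmt_RM`, every level prime to `q`)
`ord_z j~ = Σ_{P ↦ z} ord_P j`; every `P` in the fibre of `z` is a non-cusp
(`BAD.H91.ord_jF_nonneg_aux`), so `ord_P j ≥ 0`, and `3 ∣ ord_P j` by NE0.
-/

set_option autoImplicit false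
set_option linter.style.haveILetI false
set_option synthInstance.maxHeartbeats 400000
set_option maxHeartbeats 1000000

noncomputable section

open AlgebraicCurve ModularCurve
open Fermat.Agent.S28.H73 Fermat.Agent.RED.H73 Fermat.Agent.RED

namespace Fermat.Agent.S38.P3.H57

open Fermat.Agent.BAD Fermat.Agent.S38.P3

/-- **NE from NE0.** -/
theorem stmt_NE_of (h0 : Stmt_NE0) : Stmt_NE := by
  intro q M r _ hq hqM hr hr3 hrM A hA z hz
  haveI : IsAlgClosed (kV A) := isAlgClosed_kV A
  obtain ⟨rr, hrr, -⟩ := Fermat.Agent.RED.H36.stmt_RM M q hq hqM A hA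
  have hFF : IsFF (AlgebraicClosure ℚ) ↥(FNbar M) := H95.stmt_HKA_isFF M
  have hFF' := isFF_redField_bar M q hq hqM A hA
  have hP := (RED.H17.ffHyp_of_isFF _ _ hFF).principal
  have hmem : RED.H73.jF (L := AlgebraicClosure ℚ) M ∈
      (RED.H17.redSetupOf A (hasScale_laurentBaseChange A M) rr hrr).V := jF_mem A M
  have hrd : (RED.H17.redSetupOf A (hasScale_laurentBaseChange A M) rr hrr).rd
      (RED.H73.jF (L := AlgebraicClosure ℚ) M) = H91.jRed A M :=
    (RED.H17.redSetupOf A (hasScale_laurentBaseChange A M) rr hrr).rd_of_mem hmem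
  have htr := (goodChart_pre M q hq hqM A hA).1
  have hGU : (RED.H17.redSetupOf A (hasScale_laurentBaseChange A M) rr hrr).IsGU
      (RED.H73.jF (L := AlgebraicClosure ℚ) M) := by
    refine ⟨hmem, ?_⟩
    rw [hrd]
    intro h
    have h' : (redSetting A (hasScale_laurentBaseChange A M)).red
        ⟨RED.H73.jF (L := AlgebraicClosure ℚ) M, jF_mem A M⟩ = 0 := h
    rw [h'] at htr
    exact htr isAlgebraic_zero
  have hsum := (RED.H17.redSetupOf A (hasScale_laurentBaseChange A M) rr hrr).ord_rd_eq_sum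
    hP hGU z
  rw [hrd] at hsum
  rw [hsum]
  apply Finset.dvd_sum
  intro P _
  split_ifs with hPz
  · have hnn : 0 ≤ P.ord (RED.H73.jF (L := AlgebraicClosure ℚ) M) :=
      H91.ord_jF_nonneg_aux hq hqM hA
        (RED.H17.redSetupOf A (hasScale_laurentBaseChange A M) rr hrr) hmem rfl hFF' P
        (by rw [hPz]; exact hz.le)
    rcases hnn.eq_or_lt with h | h
    · rw [← h]
      exact dvd_zero _
    · exact h0 M r hr hr3 hrM P h
  · exact dvd_zero _

end Fermat.Agent.S38.P3.H57
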