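/-
S38 at `p = 3` (needed by S59-LL), leaf COMP-EIS3: interface.  Owner-planner helper60.
Plan: `NOTES/plan/L_S38_P3.md`.

At `p = 3` the component group argument of `S43/CompEis` breaks at the THICK nodes (supersingular
points with `j = 0` and an automorphism of order `3` stabilising the level structure: thickness
`n` with `3 ∣ n`).  Route (helper93's trick for BAD_3, helper57, helper60):

* `StrongAt N S t`  : the STRONG witness: two primes `r ≠ r'`, `≡ 2 mod 3`, `≥ 5`, outside `S`,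
                      prime to `N`, with `t r, t r' ≢ 0 mod 3`.
* `CompEisAt3S N A` : COMP-EIS at `p = 3` for eigenclasses with a STRONG witness.
* `Stmt_CompEis3S`  : COMP-EIS3, strong form (every level `N`, `q ‖ N`, `q ≠ 3`).
* `Stmt_NE`         : no elliptic point of order `3` in characteristic `q` at a level divisible
                      by a prime `r ≡ 2 mod 3`: every zero of `j~` has order divisible by `3`.
* `Stmt_NE0`        : the same in characteristic `0`.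
* `Stmt_Strong`     : the STRONG witness exists for a semistable curve with `E[3]` irreducible.
-/
import Fermat.Agent.S38.Wiring
import Fermat.Agent.BAD.H91_Cusp

set_option autoImplicit false
set_option synthInstance.maxHeartbeats 400000
set_option maxHeartbeats 1000000

noncomputable section

open AlgebraicCurve ModularCurve
open WeierstrassCurve WeierstrassCurve.Affine WeierstrassCurve.Affine.Point
open scoped WeierstrassCurve.Affine

namespace Fermat.Agent.S38.P3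

open Fermat.Agent.BAD Fermat.Agent.S44 Fermat.Agent.L Fermat.Agent.S43 Fermat.Agent.S43.BadQ
open Fermat.Agent.S28.H73 Fermat.Agent.RED.H73 Fermat.Agent.RED

/-- The STRONG witness for the eigensystem `t` outside `S` at the level `N`. -/
def StrongAt (N : ℕ) (S : Finset ℕ) (t : ℕ → ℤ) : Prop :=
  ∃ r r' : ℕ, r.Prime ∧ r'.Prime ∧ r ≠ r' ∧ 5 ≤ r ∧ 5 ≤ r' ∧ r % 3 = 2 ∧ r' % 3 = 2 ∧
    r ∉ S ∧ r' ∉ S ∧ ¬ r ∣ N ∧ ¬ r' ∣ N ∧
    ((t r : ℤ) : ZMod 3) ≠ 0 ∧ ((t r' : ℤ) : ZMod 3) ≠ 0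

/-- **COMP-EIS at `(3, N, A)`, strong form.** -/
def CompEisAt3S (N : ℕ) [NeZero N] (A : ValuationSubring (AlgebraicClosure ℚ)) : Prop :=
  ∀ (S : Finset ℕ) (t : ℕ → ℤ) (x : (jzModule N 3).J),
    (∀ σ ∈ A.inertiaSubgroupIn ℚ, (jzModule N 3).gal σ x = x) →
    (∀ ℓ : ℕ, ℓ.Prime → ℓ ∉ S → ¬ ℓ ∣ N → ℓ ≠ 3 →
      (jzModule N 3).T ℓ x = ((t ℓ : ℤ) : ZMod 3) • x) →
    StrongAt N S t →
    Fin1 A N 3 (jzModule.pt N 3 x)

/-- **COMP-EIS3, strong form**: every level `N`, `q ‖ N`, `q ≠ 3`. -/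
def Stmt_CompEis3S : Prop :=
  ∀ (N : ℕ) [NeZero N] (q : ℕ), q.Prime → q ≠ 3 → q ∣ N → ¬ q ^ 2 ∣ N →
    ∀ A : ValuationSubring (AlgebraicClosure ℚ), A.LiesOverPrime q → CompEisAt3S N A

/-- **NE** (no elliptic point of order `3` at a level divisible by a prime `r ≡ 2 mod 3`,
characteristic `q ∤ M`): every zero of `j~` in the reduced field of level `M` has order divisible
by `3`. -/
def Stmt_NE : Prop :=
  ∀ (q M r : ℕ) [NeZero M], q.Prime → ¬ q ∣ M → r.Prime → r % 3 = 2 → r ∣ M →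
    ∀ A : ValuationSubring (AlgebraicClosure ℚ), A.LiesOverPrime q →
    ∀ z : Place (kV A) ↥(redField A (FNbar M) (hasScale_laurentBaseChange A M)),
      0 < z.ord (H91.jRed A M) → (3 : ℤ) ∣ z.ord (H91.jRed A M)

/-- **NE0**: the same in characteristic `0`: at a level `M` divisible by a prime `r ≡ 2 mod 3`
every zero of `j` has order divisible by `3` (in fact `= 3`). -/
def Stmt_NE0 : Prop :=
  ∀ (M r : ℕ) [NeZero M], r.Prime → r % 3 = 2 → r ∣ M →
    ∀ P : Place (AlgebraicClosure ℚ) ↥(FNbar M),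
      0 < P.ord (RED.H73.jF (L := AlgebraicClosure ℚ) M) →
      (3 : ℤ) ∣ P.ord (RED.H73.jF (L := AlgebraicClosure ℚ) M)

/-- **STRONG**: for a semistable curve with `E[3]` irreducible there are primes `r ≡ 2 mod 3`
outside any finite set with `a_r ≢ 0 mod 3`. -/
def Stmt_Strong : Prop :=
  ∀ (W : WeierstrassCurve ℤ), W.Δ ≠ 0 → W.IsSemistableModel →
    GaloisRepIsIrreducible (K := AlgebraicClosure ℚ) ℚ (W.map (Int.castRingHom ℚ)).toAffine 3 →
    ∀ S : Finset ℕ, ∃ r : ℕ, r.Prime ∧ r ∉ S ∧ r % 3 = 2 ∧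
      ((W.apOfModel r : ℤ) : ZMod 3) ≠ 0

/-- The STRONG witness at every level and outside every finite set, from STRONG. -/
theorem strongAt_of_strong (h : Stmt_Strong) (W : WeierstrassCurve ℤ) (hΔ : W.Δ ≠ 0)
    (hW : W.IsSemistableModel)
    (hirr : GaloisRepIsIrreducible (K := AlgebraicClosure ℚ) ℚ
      (W.map (Int.castRingHom ℚ)).toAffine 3)
    (N : ℕ) (hN : N ≠ 0) (S : Finset ℕ) : StrongAt N S (fun ℓ => W.apOfModel ℓ) := by
  obtain ⟨r, hr, hrS, hr3, hrt⟩ := h W hΔ hW hirr (S ∪ N.primeFactors ∪ {2})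
  obtain ⟨r', hr', hr'S, hr'3, hr't⟩ := h W hΔ hW hirr (S ∪ N.primeFactors ∪ {2} ∪ {r})
  simp only [Finset.mem_union, Finset.mem_singleton, Nat.mem_primeFactors, not_or] at hrS hr'S
  have h5 : ∀ x : ℕ, x.Prime → x ≠ 2 → x % 3 = 2 → 5 ≤ x := by
    intro x hx hx2 hx3
    have h2 := hx.two_le
    by_contra hlt
    have : x = 2 ∨ x = 3 ∨ x = 4 := by omega
    rcases this with rfl | rfl | rfl
    · exact hx2 rfl
    · omega
    · omega
  refine ⟨r, r', hr, hr', fun h => hr'S.2 h.symm, h5 r hr hrS.2 hr3, h5 r' hr' hr'S.1.2 hr'3,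
    hr3, hr'3, hrS.1.1, hr'S.1.1.1, ?_, ?_, hrt, hr't⟩
  · intro hd
    exact hrS.1.2 ⟨hr, hd, hN⟩
  · intro hd
    exact hr'S.1.1.2 ⟨hr', hd, hN⟩

end Fermat.Agent.S38.P3
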