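/-
S38 at `p = 3`, leaf NE0 (helper8): characteristic `0`, at a level `M` divisible by a prime
`r ≡ 2 mod 3` every zero of `j` has order `3`.  (= RAM0 of the CE3 plan.)
-/
import Fermat.Agent.S38.P3.Defs
import Fermat.Agent.S38.CE3.H8_Ram0

set_option autoImplicit false

noncomputable section

open AlgebraicCurve ModularCurve

namespace Fermat.Agent.S38.P3.H8

/-- **NE0**. -/
theorem stmt_NE0 : Stmt_NE0 := by
  intro M r _ hr h2 hd P hP
  exact Fermat.Agent.S38.CE3.H8.three_dvd_ord_j M hr h2 hd P hP.le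

/-- NE0 in the sharp form: the order is exactly `3`. -/
theorem ne0_eq_three (M r : ℕ) [NeZero M] (hr : r.Prime) (h2 : r % 3 = 2) (hd : r ∣ M)
    (P : Place (AlgebraicClosure ℚ) ↥(Fermat.Agent.BAD.FNbar M))
    (hP : 0 < P.ord (Fermat.Agent.RED.H73.jF (L := AlgebraicClosure ℚ) M)) :
    P.ord (Fermat.Agent.RED.H73.jF (L := AlgebraicClosure ℚ) M) = 3 :=
  Fermat.Agent.S38.CE3.H8.ram0 M hr h2 hd P hP

end Fermat.Agent.S38.P3.H8
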