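import Fermat.Agent.S38.P3.Defs
import Fermat.Agent.S36.NU.H30_Ram

/-!
# S38 at `p = 3`, leaf NE0 (helper66)

`stmt_NE0 : Stmt_NE0` : at a level `M` divisible by a prime `r ≡ 2 mod 3` every zero of `j`
(in characteristic `0`) has order `3`.

* `nuThree_eq_zero_of_prime_dvd` : `ν₃(M) = 0` if a prime `r ≡ 2 mod 3` divides `M`;
* `ord_jF_eq_three` : the order is exactly `3` (from helper30's `ram_char0_zero`).
-/

set_option autoImplicit false
set_option linter.style.haveILetI false
set_option linter.unusedSectionVars false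
set_option synthInstance.maxHeartbeats 400000
set_option maxHeartbeats 1000000

noncomputable section

open AlgebraicCurve ModularCurve

namespace Fermat.Agent.S38.P3.H66

/-- `ν₃(M) = 0` if a prime `r ≡ 2 mod 3` divides `M`. -/
theorem nuThree_eq_zero_of_prime_dvd {M r : ℕ} (hr : r.Prime) (hr3 : r % 3 = 2) (h : r ∣ M) :
    nuThree M = 0 := by
  unfold nuThree
  have : IsEmpty {x : ZMod M // x ^ 2 + x + 1 = 0} := by
    refine ⟨fun x => ?_⟩
    haveI : Fact r.Prime := ⟨hr⟩
    have h1 := congrArg (ZMod.castHom h (ZMod r)) x.2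
    rw [map_add, map_add, map_pow, map_one, map_zero] at h1
    generalize (ZMod.castHom h (ZMod r)) x.1 = y at h1
    have h3 : y ^ 3 = 1 := by linear_combination (y - 1) * h1
    have hy1 : y ≠ 1 := by
      intro hy
      rw [hy] at h1
      have h4 : ((3 : ℕ) : ZMod r) = 0 := by
        push_cast
        linear_combination h1
      rw [ZMod.natCast_eq_zero_iff] at h4
      have h5 := (Nat.prime_dvd_prime_iff_eq hr Nat.prime_three).1 h4
      omega
    haveI : Fact (Nat.Prime 3) := ⟨Nat.prime_three⟩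
    have hord : orderOf y = 3 := orderOf_eq_prime h3 hy1
    have hy0 : y ≠ 0 := by
      intro h0
      rw [h0] at h3
      simp at h3
    have h6 : orderOf y ∣ r - 1 := ZMod.orderOf_dvd_card_sub_one hy0
    rw [hord] at h6
    have hr2 := hr.two_le
    omega
  exact Nat.card_of_isEmpty

/-- At a level divisible by a prime `r ≡ 2 mod 3` every zero of `j` has order exactly `3`. -/
theorem ord_jF_eq_three (M r : ℕ) [NeZero M] (hr : r.Prime) (hr3 : r % 3 = 2) (hrM : r ∣ M)
    (P : Place (AlgebraicClosure ℚ) ↥(Fermat.Agent.BAD.FNbar M))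
    (hP : 0 < P.ord (RED.H73.jF (L := AlgebraicClosure ℚ) M)) :
    P.ord (RED.H73.jF (L := AlgebraicClosure ℚ) M) = 3 := by
  have h3 := nuThree_eq_zero_of_prime_dvd hr hr3 hrM
  have key := Fermat.Agent.S36.NU.H30.ram_char0_zero M h3 P (by rwa [map_zero, sub_zero])
  rwa [map_zero, sub_zero] at key

/-- **NE0**. -/
theorem stmt_NE0 : Stmt_NE0 := by
  intro M r _ hr hr3 hrM P hP
  rw [ord_jF_eq_three M r hr hr3 hrM P hP]

end Fermat.Agent.S38.P3.H66
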