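import Fermat.Agent.S38.P3.H57_NE
import Fermat.Agent.S38.P3.H66_NE0

/-!
# S38 at `p = 3`, leaf NE, unconditional (helper57): `stmt_NE : Stmt_NE`

From `H57.stmt_NE_of` and helper66's `H66.stmt_NE0`.
-/

set_option autoImplicit false

namespace Fermat.Agent.S38.P3.H57

/-- **NE**, unconditional: at a level `M` divisible by a prime `r ≡ 2 mod 3`, in characteristic
`q ∤ M`, every zero of `j~` has order divisible by `3`. -/
theorem stmt_NE : Fermat.Agent.S38.P3.Stmt_NE :=
  stmt_NE_of Fermat.Agent.S38.P3.H66.stmt_NE0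

end Fermat.Agent.S38.P3.H57
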