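/-
S38 (row 37, general form) at `p = 3`: the PIVOT leaves (helper37).

The geometric part of PIVOT (`L/Pivot/Geom`) is available only for `p ≥ 5` (for `p = 3` the
covering `X_H → X₀` is ramified at the elliptic points of order `3`, finding of helper70).  So the
curve form of PIVOT at `p = 3` is a separate pair of leaves; their text is the text of
`L.Pivot.H76.Stmt_PivotWCore`, `Stmt_PivotWCoreSO` of `L/Pivot/H76_Wire2WDefs.lean` at `p = 3`.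

Route (helper3's plan `L_PIVOT.md` §6, `S59_TWH.md` §6): an auxiliary prime `r ≡ 2 mod 3` with
`a_r ≢ 0 mod 3` (`S38.P3.H57.stmt_Strong`); at the level `N r` there is no elliptic element of
order `3`, no eigensystem congruent to `W` is new at `r`, and `r` is removed at the end by Mazur's
principle (`r ≢ 1 mod 3`).

* `Stmt_PivotWCore3`   : level prime to `3`.
* `Stmt_PivotWCoreSO3` : `3 ∥ N`, `3 ∣ Δ`, `E[3]` not peu ramifiée at `3`.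
* `Stmt_PivotWCoreAll`, `Stmt_PivotWCoreSOAll` : the two statements for every odd `p` (what the
  wiring of S38 consumes); `Stmt_PivotWCore5`, `Stmt_PivotWCoreSO5` : the same for `p ≥ 5`.
* `pivotWCoreAll_of`, `pivotWCoreSOAll_of` : `p ≥ 5` and `p = 3` together give every odd `p`.
-/
import Fermat.Agent.L.Pivot.H76_Wire2WDefs

set_option autoImplicit false

open WeierstrassCurve WeierstrassCurve.Affine WeierstrassCurve.Affine.Point Polynomial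
open scoped WeierstrassCurve.Affine

namespace Fermat.Agent.S38.P3

open Fermat.Agent.S44 Fermat.Agent.S43 Fermat.Agent.L.Pivot.H76 IsLocalRing

/-- **PIVOT at `p = 3`, curve form, level prime to `3`.** -/
def Stmt_PivotWCore3 : Prop :=
  ∀ (W : WeierstrassCurve ℤ), W.Δ ≠ 0 → W.IsSemistableModel →
    GaloisRepIsIrreducible (K := AlgebraicClosure ℚ) ℚ (W.map (Int.castRingHom ℚ)).toAffine 3 →
    ∀ (N q : ℕ), Squarefree N → ¬ 3 ∣ N → q.Prime → q ∣ N → UnrW W 3 q →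
    (∀ q' : ℕ, q'.Prime → q' ∣ N → UnrW W 3 q' → IsExcW W 3 q') →
    ∀ (f : CuspForm (CongruenceSubgroup.Gamma0 N) 2) (𝔪 : Ideal (integralClosure ℤ ℂ))
      (S : Finset ℕ),
    f.IsNormalizedEigenform → 𝔪.IsMaximal → ((3 : ℕ) : integralClosure ℤ ℂ) ∈ 𝔪 →
    (∀ ℓ : ℕ, ℓ.Prime → ℓ ∉ S → W.IsGoodPrimeFor ℓ → ¬ ℓ ∣ N → ℓ ≠ 3 →
      ∃ a : integralClosure ℤ ℂ, (a : ℂ) = ModularFormClass.qCoeff f ℓ ∧
        a - ((W.apOfModel ℓ : ℤ) : integralClosure ℤ ℂ) ∈ 𝔪) →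
    LowerConcl 3 N q W

/-- **PIVOT at `p = 3`, curve form, `3 ∥ N` and `E[3]` très ramifiée at `3`.** -/
def Stmt_PivotWCoreSO3 : Prop :=
  ∀ (W : WeierstrassCurve ℤ), W.Δ ≠ 0 → W.IsSemistableModel →
    GaloisRepIsIrreducible (K := AlgebraicClosure ℚ) ℚ (W.map (Int.castRingHom ℚ)).toAffine 3 →
    ∀ (N q : ℕ), Squarefree N → 3 ∣ N → (3 : ℤ) ∣ W.Δ →
    ¬ (W.map (Int.castRingHom ℚ)).IsPeuRamifieeAt 3 3 →
    q.Prime → q ≠ 3 → q ∣ N → UnrW W 3 q →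
    (∀ q' : ℕ, q'.Prime → q' ≠ 3 → q' ∣ N → UnrW W 3 q' → IsExcW W 3 q') →
    ∀ (f : CuspForm (CongruenceSubgroup.Gamma0 N) 2) (𝔪 : Ideal (integralClosure ℤ ℂ))
      (S : Finset ℕ),
    f.IsNormalizedEigenform → 𝔪.IsMaximal → ((3 : ℕ) : integralClosure ℤ ℂ) ∈ 𝔪 →
    (∀ ℓ : ℕ, ℓ.Prime → ℓ ∉ S → W.IsGoodPrimeFor ℓ → ¬ ℓ ∣ N → ℓ ≠ 3 →
      ∃ a : integralClosure ℤ ℂ, (a : ℂ) = ModularFormClass.qCoeff f ℓ ∧
        a - ((W.apOfModel ℓ : ℤ) : integralClosure ℤ ℂ) ∈ 𝔪) →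
    LowerConcl 3 N q W

/-- **PIVOT, curve form, level prime to `p`, every odd `p`.** -/
def Stmt_PivotWCoreAll : Prop :=
  ∀ (p : ℕ), p.Prime → p ≠ 2 → ∀ (W : WeierstrassCurve ℤ), W.Δ ≠ 0 → W.IsSemistableModel →
    GaloisRepIsIrreducible (K := AlgebraicClosure ℚ) ℚ (W.map (Int.castRingHom ℚ)).toAffine p →
    ∀ (N q : ℕ), Squarefree N → ¬ p ∣ N → q.Prime → q ∣ N → UnrW W p q →
    (∀ q' : ℕ, q'.Prime → q' ∣ N → UnrW W p q' → IsExcW W p q') →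
    ∀ (f : CuspForm (CongruenceSubgroup.Gamma0 N) 2) (𝔪 : Ideal (integralClosure ℤ ℂ))
      (S : Finset ℕ),
    f.IsNormalizedEigenform → 𝔪.IsMaximal → (p : integralClosure ℤ ℂ) ∈ 𝔪 →
    (∀ ℓ : ℕ, ℓ.Prime → ℓ ∉ S → W.IsGoodPrimeFor ℓ → ¬ ℓ ∣ N → ℓ ≠ p →
      ∃ a : integralClosure ℤ ℂ, (a : ℂ) = ModularFormClass.qCoeff f ℓ ∧
        a - ((W.apOfModel ℓ : ℤ) : integralClosure ℤ ℂ) ∈ 𝔪) →
    LowerConcl p N q W

/-- **PIVOT, curve form, `p ∥ N` and `E[p]` très ramifiée at `p`, every odd `p`.** -/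
def Stmt_PivotWCoreSOAll : Prop :=
  ∀ (p : ℕ), p.Prime → p ≠ 2 → ∀ (W : WeierstrassCurve ℤ), W.Δ ≠ 0 → W.IsSemistableModel →
    GaloisRepIsIrreducible (K := AlgebraicClosure ℚ) ℚ (W.map (Int.castRingHom ℚ)).toAffine p →
    ∀ (N q : ℕ), Squarefree N → p ∣ N → (p : ℤ) ∣ W.Δ →
    ¬ (W.map (Int.castRingHom ℚ)).IsPeuRamifieeAt p p →
    q.Prime → q ≠ p → q ∣ N → UnrW W p q →
    (∀ q' : ℕ, q'.Prime → q' ≠ p → q' ∣ N → UnrW W p q' → IsExcW W p q') →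
    ∀ (f : CuspForm (CongruenceSubgroup.Gamma0 N) 2) (𝔪 : Ideal (integralClosure ℤ ℂ))
      (S : Finset ℕ),
    f.IsNormalizedEigenform → 𝔪.IsMaximal → (p : integralClosure ℤ ℂ) ∈ 𝔪 →
    (∀ ℓ : ℕ, ℓ.Prime → ℓ ∉ S → W.IsGoodPrimeFor ℓ → ¬ ℓ ∣ N → ℓ ≠ p →
      ∃ a : integralClosure ℤ ℂ, (a : ℂ) = ModularFormClass.qCoeff f ℓ ∧
        a - ((W.apOfModel ℓ : ℤ) : integralClosure ℤ ℂ) ∈ 𝔪) →
    LowerConcl p N q W

/-- **PIVOT, curve form, level prime to `p`, `p ≥ 5`.** -/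
def Stmt_PivotWCore5 : Prop :=
  ∀ (p : ℕ), p.Prime → 5 ≤ p → ∀ (W : WeierstrassCurve ℤ), W.Δ ≠ 0 → W.IsSemistableModel →
    GaloisRepIsIrreducible (K := AlgebraicClosure ℚ) ℚ (W.map (Int.castRingHom ℚ)).toAffine p →
    ∀ (N q : ℕ), Squarefree N → ¬ p ∣ N → q.Prime → q ∣ N → UnrW W p q →
    (∀ q' : ℕ, q'.Prime → q' ∣ N → UnrW W p q' → IsExcW W p q') →
    ∀ (f : CuspForm (CongruenceSubgroup.Gamma0 N) 2) (𝔪 : Ideal (integralClosure ℤ ℂ))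
      (S : Finset ℕ),
    f.IsNormalizedEigenform → 𝔪.IsMaximal → (p : integralClosure ℤ ℂ) ∈ 𝔪 →
    (∀ ℓ : ℕ, ℓ.Prime → ℓ ∉ S → W.IsGoodPrimeFor ℓ → ¬ ℓ ∣ N → ℓ ≠ p →
      ∃ a : integralClosure ℤ ℂ, (a : ℂ) = ModularFormClass.qCoeff f ℓ ∧
        a - ((W.apOfModel ℓ : ℤ) : integralClosure ℤ ℂ) ∈ 𝔪) →
    LowerConcl p N q W

/-- **PIVOT, curve form, `p ∥ N` and `E[p]` très ramifiée at `p`, `p ≥ 5`.** -/
def Stmt_PivotWCoreSO5 : Prop :=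
  ∀ (p : ℕ), p.Prime → 5 ≤ p → ∀ (W : WeierstrassCurve ℤ), W.Δ ≠ 0 → W.IsSemistableModel →
    GaloisRepIsIrreducible (K := AlgebraicClosure ℚ) ℚ (W.map (Int.castRingHom ℚ)).toAffine p →
    ∀ (N q : ℕ), Squarefree N → p ∣ N → (p : ℤ) ∣ W.Δ →
    ¬ (W.map (Int.castRingHom ℚ)).IsPeuRamifieeAt p p →
    q.Prime → q ≠ p → q ∣ N → UnrW W p q →
    (∀ q' : ℕ, q'.Prime → q' ≠ p → q' ∣ N → UnrW W p q' → IsExcW W p q') →
    ∀ (f : CuspForm (CongruenceSubgroup.Gamma0 N) 2) (𝔪 : Ideal (integralClosure ℤ ℂ))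
      (S : Finset ℕ),
    f.IsNormalizedEigenform → 𝔪.IsMaximal → (p : integralClosure ℤ ℂ) ∈ 𝔪 →
    (∀ ℓ : ℕ, ℓ.Prime → ℓ ∉ S → W.IsGoodPrimeFor ℓ → ¬ ℓ ∣ N → ℓ ≠ p →
      ∃ a : integralClosure ℤ ℂ, (a : ℂ) = ModularFormClass.qCoeff f ℓ ∧
        a - ((W.apOfModel ℓ : ℤ) : integralClosure ℤ ℂ) ∈ 𝔪) →
    LowerConcl p N q W

/-- An odd prime is `3` or at least `5`. -/
theorem three_or_five_le_of_odd {p : ℕ} (hp : p.Prime) (hp2 : p ≠ 2) : p = 3 ∨ 5 ≤ p := by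
  have h2 := hp.two_le
  have h4 : p ≠ 4 := by
    rintro rfl
    exact absurd hp (by decide)
  omega

/-- `p ≥ 5` and `p = 3` together: every odd `p` (level prime to `p`). -/
theorem pivotWCoreAll_of (h5 : Stmt_PivotWCore5) (h3 : Stmt_PivotWCore3) :
    Stmt_PivotWCoreAll := by
  intro p hp hp2
  rcases three_or_five_le_of_odd hp hp2 with rfl | h
  · exact h3
  · exact h5 p hp h

/-- `p ≥ 5` and `p = 3` together: every odd `p` (`p ∥ N`). -/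
theorem pivotWCoreSOAll_of (h5 : Stmt_PivotWCoreSO5) (h3 : Stmt_PivotWCoreSO3) :
    Stmt_PivotWCoreSOAll := by
  intro p hp hp2
  rcases three_or_five_le_of_odd hp hp2 with rfl | h
  · exact h3
  · exact h5 p hp h

end Fermat.Agent.S38.P3
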