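import Fermat.Agent.S38.P3.H57_StrongCore
import Fermat.Agent.Tate.T7.Main
import Fermat.Agent.S41.H19_I3Final
import Fermat.Agent.S58.H99_Tors

/-!
# S38 at `p = 3`: the STRONG non-Eisenstein witness (helper57)

For a semistable curve `W` with `W[3]` irreducible and every finite set `S` of primes there is a
good prime `ℓ ∉ S`, `ℓ ≡ 2 mod 3`, with `a_ℓ(W) ≢ 0 mod 3`.

This is the input of the `T_ℓ` trick of COMP-EIS at `p = 3` (the level `N ℓ` has no elliptic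
point of order `3`, and `T_ℓ` acts invertibly on the eigenvector).  Note that such an `ℓ` is in
particular a non-Eisenstein witness: `1 + ℓ ≡ 0 ≢ a_ℓ`.

Proof: `Tate.T7.stmt_TWT` (the image of every subgroup of index two spans `End W[3]`) applied to
`H = ker (det ρ)`, the linear algebra core `exists_det_neg_one_trace_ne_zero`, the existence form
of Frobenius density (`Lib.FrobDensity.stmt_FD`) and `Lib.EllFinite.stmt_main`.
-/

set_option autoImplicit false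

open WeierstrassCurve WeierstrassCurve.Affine WeierstrassCurve.Affine.Point

namespace Fermat.Agent.S38.P3.H57

open Fermat.Agent.S58.H99 (TorsW torsRho finrank_torsW)

/-- **STRONG witness at `p = 3`.** -/
def Stmt_Strong3 : Prop :=
  ∀ (W : WeierstrassCurve ℤ), W.Δ ≠ 0 → W.IsSemistableModel → W.ModRepIsIrreducible 3 →
    ∀ S : Finset ℕ, ∃ ℓ : ℕ, ℓ.Prime ∧ ℓ ∉ S ∧ W.IsGoodPrimeFor ℓ ∧ ℓ ≠ 3 ∧
      (ℓ : ZMod 3) = -1 ∧ ((W.apOfModel ℓ : ℤ) : ZMod 3) ≠ 0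

theorem neg_one_pow_zmod3 (d : ZMod 3) (j : ℕ) (h : d ^ j = -1) : d = -1 ∧ Odd j := by
  rcases zmod3_cases d with rfl | rfl | rfl
  · exfalso
    rcases Nat.eq_zero_or_pos j with rfl | hj
    · revert h; decide
    · rw [zero_pow hj.ne'] at h
      revert h; decide
  · exfalso
    rw [one_pow] at h
    revert h; decide
  · refine ⟨rfl, ?_⟩
    rcases Nat.even_or_odd j with hj | hj
    · exfalso
      rw [hj.neg_one_pow] at h
      revert h; decide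
    · exact hj

theorem stmt_Strong3 : Stmt_Strong3 := by
  intro W hΔ hss hirr S
  have hfr := finrank_torsW W hΔ 3
  have : Module.Finite (ZMod 3) (TorsW W 3) := Module.finite_of_finrank_eq_succ hfr
  have : Finite (TorsW W 3) := Module.finite_of_finite (ZMod 3)
  have halg : Algebra.IsAlgebraic ℚ (AlgebraicClosure ℚ) := AlgebraicClosure.isAlgebraic ℚ
  obtain ⟨L, hL, hLg⟩ := Fermat.Agent.L.H19.exists_finite_level (F := ℚ)
    (K := AlgebraicClosure ℚ) (W.map (Int.castRingHom ℚ)) 3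
  have hΔpos : 0 < W.Δ.natAbs := Nat.pos_of_ne_zero (Int.natAbs_ne_zero.mpr hΔ)
  -- an element of determinant `-1`: a Frobenius at a prime `≡ 2 mod 3`
  obtain ⟨ℓ₁, hℓ₁gt, hℓ₁, hℓ₁mod⟩ := Nat.forall_exists_prime_gt_and_eq_mod (q := 3)
    (a := -1) isUnit_one.neg (max 3 W.Δ.natAbs)
  obtain ⟨A₁, σ₁, hA₁, hσ₁⟩ := Fermat.Agent.Lib.FrobExists.exists_place_and_frobenius ℓ₁ hℓ₁
  have hgood₁ : W.IsGoodPrimeFor ℓ₁ := by
    intro hdvd
    have h1 : ℓ₁ ∣ W.Δ.natAbs := Int.natCast_dvd.mp hdvd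
    have h2 : ℓ₁ ≤ W.Δ.natAbs := Nat.le_of_dvd hΔpos h1
    have := le_max_right 3 W.Δ.natAbs
    omega
  have h3ℓ₁ : 3 ≠ ℓ₁ := by
    have := le_max_left 3 W.Δ.natAbs
    omega
  obtain ⟨-, -, hdet₁⟩ := Fermat.Agent.Lib.EllFinite.stmt_main W 3 ℓ₁ hℓ₁ h3ℓ₁ hgood₁ A₁ hA₁
    σ₁ hσ₁
  have hdet₁' : LinearMap.det (torsRho W 3 σ₁) = -1 := by
    rw [← hℓ₁mod]
    exact hdet₁
  -- the Taylor–Wiles condition for `H = ker det`
  have hidx := index_detKer (torsRho W 3) hdet₁'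
  have hspan := Fermat.Agent.Tate.T7.stmt_TWT W hΔ hss 3 (by norm_num) hirr
    (detKer (torsRho W 3)) hidx
  obtain ⟨g₀, hg₀d, hg₀t⟩ := exists_det_neg_one_trace_ne_zero hfr (torsRho W 3) hdet₁' hspan
  -- Frobenius density
  obtain ⟨ℓ, A, σ, j, hℓ, hℓS, hA, hσ, hj⟩ :=
    Fermat.Agent.Lib.FrobDensity.stmt_FD (S ∪ (3 * W.Δ.natAbs).primeFactors) L hL g₀
  have hℓS1 : ℓ ∉ S := fun h => hℓS (Finset.mem_union_left _ h)
  have hnd : ¬ ℓ ∣ 3 * W.Δ.natAbs := fun hd =>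
    hℓS (Finset.mem_union_right _ (Nat.mem_primeFactors.mpr
      ⟨hℓ, hd, mul_ne_zero (by norm_num) hΔpos.ne'⟩))
  have hℓ3 : ℓ ≠ 3 := by
    rintro rfl
    exact hnd (dvd_mul_right _ _)
  have hgood : W.IsGoodPrimeFor ℓ := by
    intro hdvd
    exact hnd (Dvd.dvd.mul_left (Int.natCast_dvd.mp hdvd) _)
  obtain ⟨-, htrσ, hdetσ⟩ := Fermat.Agent.Lib.EllFinite.stmt_main W 3 ℓ hℓ hℓ3.symm hgood A hA
    σ hσ
  have hρ : torsRho W 3 g₀ = (torsRho W 3 σ) ^ j := by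
    rw [← map_pow]
    apply LinearMap.ext
    intro v
    exact (hLg (σ ^ j) g₀ hj v).symm
  have hdetσ' : LinearMap.det (torsRho W 3 σ) = (ℓ : ZMod 3) := hdetσ
  have htrσ' : LinearMap.trace (ZMod 3) (TorsW W 3) (torsRho W 3 σ)
      = ((W.apOfModel ℓ : ℤ) : ZMod 3) := by
    rw [← htrσ]
    rfl
  have hpow : (ℓ : ZMod 3) ^ j = -1 := by
    rw [← hdetσ', ← map_pow, ← hρ]
    exact hg₀d
  obtain ⟨hℓmod, hjodd⟩ := neg_one_pow_zmod3 _ _ hpow
  refine ⟨ℓ, hℓ, hℓS1, hgood, hℓ3, hℓmod, ?_⟩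
  intro h0
  apply hg₀t
  have hsq : torsRho W 3 σ * torsRho W 3 σ = 1 :=
    sq_eq_one_of_trace_zero hfr _ (by rw [htrσ', h0]) (by rw [hdetσ', hℓmod])
  rw [hρ, pow_odd_of_sq_eq_one _ hsq j hjodd, htrσ', h0]

end Fermat.Agent.S38.P3.H57
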