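import Fermat.Agent.S38.P3.Defs
import Fermat.Agent.S38.P3.H57_Strong

/-!
# S38 at `p = 3`, leaf STRONG (helper57): `stmt_Strong : Fermat.Agent.S38.P3.Stmt_Strong`

The statement of `S38/P3/Defs.lean` from `H57.stmt_Strong3` (`S38/P3/H57_Strong.lean`).
-/

set_option autoImplicit false

namespace Fermat.Agent.S38.P3.H57

/-- **STRONG**: for a semistable curve with `E[3]` irreducible there are primes `r ≡ 2 mod 3`
outside any finite set with `a_r ≢ 0 mod 3`. -/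
theorem stmt_Strong : Fermat.Agent.S38.P3.Stmt_Strong := by
  intro W hΔ hW hirr S
  obtain ⟨ℓ, hℓ, hℓS, -, -, hmod, ht⟩ := stmt_Strong3 W hΔ hW hirr S
  refine ⟨ℓ, hℓ, hℓS, ?_, ht⟩
  have h2 : ((ℓ : ℕ) : ZMod 3) = ((2 : ℕ) : ZMod 3) := by
    rw [hmod]
    decide
  have h3 := (ZMod.natCast_eq_natCast_iff' ℓ 2 3).1 h2
  simpa using h3

end Fermat.Agent.S38.P3.H57
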