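/-
S38 at `p = 3`, leaf COMP-EIS3 (owner helper60): interface, part 2 (the split of NE0).

* `Stmt_NEB` (**NE-BOUND**, characteristic `0`, every level): `ord_P (j) ≤ 3`.
  Route: auxiliary prime `q' ≡ 2 mod 3`, `q' ≥ 5`, `q' ∤ M`, `A'` over `q'`; conservation at the
  level `M` (`RED.H36.stmt_RM`, `ord_le_ord_rd`): `ord_P (j) ≤ ord_z (j~)`, `z = r P`; `z` is a
  node of the modular datum of level `M q'` (`BAD.H91.isNode_modT`, because `rd unitF = H(j~)`
  vanishes at the zeros of `j~` for `q' ≡ 2 mod 3`); `H60.coord_twelve`: `n · ord_z (rd unitF) = 12`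
  and `H60.ord_unit_of_zero`: `ord_z (rd unitF) = 4 · ord_z (j~)`; so `ord_z (j~) ∣ 3`.
* `Stmt_NE0` from `Stmt_NEB`: count (`S24.asm_card_zeros_zero`, `S24.asm_orb_ST`, the degree of
  `j` is `ψ(M)`; `ν₃ (M) = 0` because `r ∣ M`).
-/
import Fermat.Agent.S38.P3.Defs
attribute [local instance 10000] SubalgebraClass.toAlgebra
attribute [local instance 10000] HahnSeries.powerSeriesAlgebra

set_option autoImplicit false
set_option synthInstance.maxHeartbeats 400000
set_option maxHeartbeats 1000000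

noncomputable section

open AlgebraicCurve ModularCurve

namespace Fermat.Agent.S38.P3

open Fermat.Agent.BAD Fermat.Agent.S28.H73 Fermat.Agent.RED.H73 Fermat.Agent.RED
open Fermat.Agent.S43.BadQ Fermat.Agent.S44

/-- **NE-BOUND**: in characteristic `0`, at every level, the zeros of `j` have order at most
`3`. -/
def Stmt_NEB : Prop :=
  ∀ (M : ℕ) [NeZero M] (P : Place (AlgebraicClosure ℚ) ↥(FNbar M)),
    P.ord (RED.H73.jF (L := AlgebraicClosure ℚ) M) ≤ 3

/-- **DESC3**: descent of the divisibility by `3` of the orders of a reduced function from the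
level `N' = 3 N` to the level `N`, `3 ∤ N`, at a place `A` of residue characteristic `q ≠ 3`
(the reduced fields have relative degree `4`: `4 ord_Q φ = ord_Q (Norm φ) = ∑_{Q' ∣ Q} ord_{Q'} φ`,
`BADP.H74.dvd_ord_normAlong` with `RED.H51.stmt_FFB_norm`; compare `S43.CompEis.H57.stmt_CE_Desc'`
for `p ≥ 5`). -/
def Stmt_CE_Desc3 : Prop :=
  ∀ (q : ℕ), q.Prime → q ≠ 3 →
    ∀ (N N' : ℕ) [NeZero N] [NeZero N'], N' = 3 * N → ¬ 3 ∣ N → ¬ q ^ 2 ∣ N →
    ∀ A : ValuationSubring (AlgebraicClosure ℚ), A.LiesOverPrime q →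
    ∀ (f : ↥(gaussV A N)) (f' : ↥(gaussV A N')),
      (((f' : ↥(gaussV A N')) : ↥(FNbar N')) : LaurentSeries (AlgebraicClosure ℚ)) =
        (((f : ↥(gaussV A N)) : ↥(FNbar N)) : LaurentSeries (AlgebraicClosure ℚ)) →
      (∀ Q' : Place (kV A) ↥(redField A (FNbar N') (hasScale_laurentBaseChange A N')),
        (3 : ℤ) ∣ Q'.ord (gaussRes A N' f')) →
      ∀ Q : Place (kV A) ↥(redField A (FNbar N) (hasScale_laurentBaseChange A N)),
        (3 : ℤ) ∣ Q.ord (gaussRes A N f)

end Fermat.Agent.S38.P3
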