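/-
S38 at `p = 3`, leaf COMP-EIS3 (owner helper60): interface, part 3 (the split of PUSH).

* `Stmt_PushNorm` (**PUSH-NORM**, helper93's trick): level `N = M q`, `A` over `q`, `r ∤ M q` a
  prime, `u` a Gauss unit of level `N` with `3 D = div u`, `T_r [D] = t [D]`, `3 ∤ t`.  If all
  orders of the reduction of `β_r u` (level `N r`) are divisible by `3`, so are all orders of the
  reduction of `u`.
  Proof: NORM-RED (`S43.Old.H35.hnorm_levelN`): `rd (N_α (β u)) = N_α~ (β~ (rd u))`;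
  `BADP.H74.dvd_ord_normAlong` for `α~` (norm formula `RED.H51.stmt_FFB_norm`):
  `3 ∣ ord_Q (N_α~ (β~ rd u))`; `BADP.H74.ord_norm_red_eq`:
  `ord_Q (N_α~ (β~ rd u)) = t ord_Q (rd u) + 3 ord_Q h'`.
-/
import Fermat.Agent.S38.P3.Defs2

set_option autoImplicit false
set_option synthInstance.maxHeartbeats 400000
set_option maxHeartbeats 1000000

noncomputable section

open AlgebraicCurve ModularCurve

namespace Fermat.Agent.S38.P3

open Fermat.Agent.BAD Fermat.Agent.S28.H73 Fermat.Agent.RED.H73 Fermat.Agent.RED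
open Fermat.Agent.S43.BadQ Fermat.Agent.S44

/-- **PUSH-NORM.** -/
def Stmt_PushNorm : Prop :=
  ∀ (q M r : ℕ) [NeZero (M * q)] [NeZero r] [NeZero (M * q * r)] (_ : q.Prime) (_ : ¬ q ∣ M)
    (hr : r.Prime) (_ : ¬ r ∣ M * q)
    (A : ValuationSubring (AlgebraicClosure ℚ)) (_ : A.LiesOverPrime q),
    ∀ (u : ↥(gaussV A (M * q)))
      (D : Divisor.degZero (K := AlgebraicClosure ℚ) (F := ↥(FNbar (M * q)))) (t : ℤ),
      gaussRes A (M * q) u ≠ 0 →
      (∀ P : Place (AlgebraicClosure ℚ) ↥(FNbar (M * q)),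
        (3 : ℤ) * (D : Divisor (AlgebraicClosure ℚ) ↥(FNbar (M * q))) P
          = P.ord (u : ↥(FNbar (M * q)))) →
      heckeOperatorBar (M * q) ⟨r, hr⟩ (Pic0.mk D) = t • (Pic0.mk D : JZero (M * q)) →
      ¬ (3 : ℤ) ∣ t →
      ∀ hβ : heckeBetaBar (AlgebraicClosure ℚ) (M * q) r (u : ↥(FNbar (M * q)))
          ∈ gaussV A (M * q * r),
      (∀ Q' : Place (kV A)
          ↥(redField A (FNbar (M * q * r)) (hasScale_laurentBaseChange A (M * q * r))),
        (3 : ℤ) ∣ Q'.ord (gaussRes A (M * q * r) ⟨_, hβ⟩)) →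
      ∀ Q : Place (kV A) ↥(redField A (FNbar (M * q)) (hasScale_laurentBaseChange A (M * q))),
        (3 : ℤ) ∣ Q.ord (gaussRes A (M * q) u)

end Fermat.Agent.S38.P3
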