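/-
S38 at `p = 3`, leaf COMP-EIS3 (owner helper60), leaf PUSH-NORM (helper52): `Stmt_PushNorm`.

`N = M q`, `q ∤ M`, `A` over `q`, `r ∤ M q` a prime, `u` a Gauss unit of level `N` with
`3 D = div u`, `T_r [D] = t [D]`, `3 ∤ t`.  If all orders of the reduction of `β_r u` (level
`N r`) are divisible by `3`, so are all orders of the reduction of `u`.

Proof (helper93's trick):
* NORM-RED (`S43.Old.H35.hnorm_levelN`): `rd (N_α (β u)) = N_α~ (β~ (rd u))`;
* Hecke on slopes (`BADP.H74.ord_norm_red_eq`):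
  `ord_Q (N_α~ (β~ rd u)) = t ord_Q (rd u) + 3 ord_Q h'`;
* `BADP.H74.dvd_ord_normAlong` for `α~`: `3 ∣ ord_Q (N_α~ (β~ rd u))`;
* the reduced fields of the levels `M q` and `M`, resp. `M q r` and `M r`, are equal
  (`S43.Old.H35.ft_mul_eq`).

Complete proof, standard axioms only.
-/
import Fermat.Agent.S38.P3.Defs3
import Fermat.Agent.BADP.H74_HDropCore
attribute [local instance 10000] SubalgebraClass.toAlgebra
attribute [local instance 10000] HahnSeries.powerSeriesAlgebra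

set_option autoImplicit false
set_option linter.style.haveILetI false
set_option linter.unusedSectionVars false
set_option synthInstance.maxHeartbeats 400000
set_option maxHeartbeats 1000000

noncomputable section

open AlgebraicCurve ModularCurve Fermat.Agent.S28.H73 Fermat.Agent.RED.H73 Fermat.Agent.RED
open Fermat.Agent.BAD Fermat.Agent.S43.Old.H35 Fermat.Agent.BADP.H74

namespace Fermat.Agent.S38.P3.H52

section Transport

variable (A : ValuationSubring (AlgebraicClosure ℚ))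

/-- Divisibility of the orders of the reduction does not depend on the name of the reduced
field. -/
theorem dvd_ord_resTo_iff (N' : ℕ) (E : IntermediateField (kV A) (LaurentSeries (kV A)))
    (hE : Ft A N' = E) (hle : Ft A N' ≤ E) (x : ↥(gaussV A N')) (n : ℤ) :
    (∀ Q : Place (kV A) ↥E, n ∣ Q.ord (resTo A N' E hle x)) ↔
      ∀ Q : Place (kV A) ↥(Ft A N'), n ∣ Q.ord (gaussRes A N' x) := by
  subst hE
  have h : resTo A N' (Ft A N') hle x = gaussRes A N' x := Subtype.ext rfl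
  rw [h]

theorem resTo_ne_zero_of_gaussRes (N' : ℕ) (E : IntermediateField (kV A) (LaurentSeries (kV A)))
    (hle : Ft A N' ≤ E) (x : ↥(gaussV A N')) (hx : gaussRes A N' x ≠ 0) :
    resTo A N' E hle x ≠ 0 := by
  intro h0
  apply hx
  have h1 := congrArg (Subtype.val) h0
  rw [coe_resTo] at h1
  apply Subtype.ext
  have h2 : ((gaussRes A N' x : ↥(Ft A N')) : LaurentSeries (kV A))
      = gaussResF A (hasScale_laurentBaseChange A N') x := rfl
  rw [h2, h1]
  rfl

end Transport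

section Core

variable (A : ValuationSubring (AlgebraicClosure ℚ)) (M q r : ℕ) [NeZero M] [NeZero (M * q)]
  [NeZero r]

/-- **PUSH-NORM with values in `Ft A M`.** -/
theorem pushNorm_core (hq : q.Prime) (hqM : ¬ q ∣ M) (hr : r.Prime) (hrN : ¬ r ∣ M * q)
    (hA : A.LiesOverPrime q) (hle : Ft A (M * q) ≤ Ft A M)
    (t : ℤ) (ht : ¬ (3 : ℤ) ∣ t)
    (D : Divisor.degZero (K := AlgebraicClosure ℚ) (F := ↥(FNbar (M * q))))
    (u : ↥(gaussV A (M * q)))
    (hu : resTo A (M * q) (Ft A M) hle u ≠ 0)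
    (hD : ∀ P : Place (AlgebraicClosure ℚ) ↥(FNbar (M * q)),
      (3 : ℤ) * (D : Divisor (AlgebraicClosure ℚ) ↥(FNbar (M * q))) P
        = P.ord ((u : ↥(FNbar (M * q)))))
    (hT : heckeOperatorBar (M * q) ⟨r, hr⟩ (Pic0.mk D) = t • Pic0.mk D)
    (hβ3 : ∀ Q' : Place (kV A) ↥(Ft A (M * r)),
      (3 : ℤ) ∣ Q'.ord (betaT A M r (resTo A (M * q) (Ft A M) hle u))) :
    ∀ Q : Place (kV A) ↥(Ft A M), (3 : ℤ) ∣ Q.ord (resTo A (M * q) (Ft A M) hle u) := by
  have hrq : r ≠ q := fun h => hrN (h ▸ dvd_mul_left r M)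
  have hqr : ¬ q ∣ r := fun h => hrq ((Nat.prime_dvd_prime_iff_eq hq hr).1 h).symm
  have hqMr : ¬ q ∣ M * r := by
    intro h
    rcases (Nat.Prime.dvd_mul hq).1 h with h1 | h1
    · exact hqM h1
    · exact hqr h1
  obtain ⟨hα, hβ, hP, hfin, hFI, hNF⟩ := RED.H51.stmt_HKA (M * q) r
  haveI := hP
  have hTI := towerInputs (A := A) (M := M) (ℓ := r) hq hA hqMr
  haveI := hTI.hP
  have heig := heig_of_eigen (M * q) r hr hα hβ hfin hFI hNF D t hT
  have hD' : ∀ P : Place (AlgebraicClosure ℚ) ↥(FNbar (M * q)),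
      ((3 : ℕ) : ℤ) * (D : Divisor (AlgebraicClosure ℚ) ↥(FNbar (M * q))) P
        = P.ord ((u : ↥(FNbar (M * q)))) := fun P => by
    have := hD P
    exact_mod_cast this
  obtain ⟨-, h', -, hrel⟩ := ord_norm_red_eq
    (fun g hg h => by
      obtain ⟨c', hc'⟩ := Fermat.Agent.GTor.H33.exists_algebraMap_eq_FN (M * q) g hg h
      exact ⟨c', hc'.symm⟩)
    (heckeAlphaBar (AlgebraicClosure ℚ) (M * q) r) (heckeBetaBar (AlgebraicClosure ℚ) (M * q) r)
    hα hβ hfin hNF (alphaT A M r) (betaT A M r) hTI.hfin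
    (gaussV A (M * q)) (resTo A (M * q) (Ft A M) hle)
    (fun g => resTo_eq_zero_iff A (M * q) (Ft A M) hle g)
    (fun g hg => resTo_scale A (M * q) (Ft A M) hle g hg)
    (fun c' h => resTo_const A (M * q) (Ft A M) hle c' h)
    (fun g => hnorm_levelN A q M r hq hqM hr hrN hA hle g)
    3 t (D : Divisor (AlgebraicClosure ℚ) ↥(FNbar (M * q))) u hu hD' heig
  intro Q
  have hβu0 : betaT A M r (resTo A (M * q) (Ft A M) hle u) ≠ 0 := by
    intro h0
    exact hu ((betaT A M r).toRingHom.injective (by simpa using h0))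
  have h4 := dvd_ord_normAlong (alphaT A M r) hTI.hα hTI.hfin hTI.hNF (3 : ℤ) hβu0 Q
    (fun w _ => hβ3 w)
  rw [hrel Q] at h4
  have h5 : (3 : ℤ) ∣ t * Q.ord (resTo A (M * q) (Ft A M) hle u) := by
    have h6 : (3 : ℤ) ∣ ((3 : ℕ) : ℤ) * Q.ord h' := ⟨Q.ord h', by push_cast; ring⟩
    exact (dvd_add_left h6).mp h4
  exact (Int.prime_three.dvd_or_dvd h5).resolve_left ht

end Core

/-- **PUSH-NORM.** -/
theorem stmt_PushNorm : Stmt_PushNorm := by
  intro q M r _ _ _ hq hqM hr hrN A hA u D t hu hD hT ht hβ hQ'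
  haveI : NeZero M := ⟨fun h => NeZero.ne (M * q) (by rw [h, zero_mul])⟩
  have hrq : r ≠ q := fun h => hrN (h ▸ dvd_mul_left r M)
  have hqr : ¬ q ∣ r := fun h => hrq ((Nat.prime_dvd_prime_iff_eq hq hr).1 h).symm
  have hqMr : ¬ q ∣ M * r := by
    intro h
    rcases (Nat.Prime.dvd_mul hq).1 h with h1 | h1
    · exact hqM h1
    · exact hqr h1
  haveI : NeZero (M * r) := ⟨Nat.mul_ne_zero (NeZero.ne M) (NeZero.ne r)⟩
  haveI : NeZero (M * r * q) := ⟨Nat.mul_ne_zero (NeZero.ne (M * r)) hq.ne_zero⟩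
  have heq : Ft A (M * q) = Ft A M := ft_mul_eq A q M hq hqM hA
  have heq' : Ft A (M * q * r) = Ft A (M * r) :=
    (redField_congr A (Nat.mul_right_comm M q r)).trans (ft_mul_eq A q (M * r) hq hqMr hA)
  -- the `β` side
  have h1 := (dvd_ord_resTo_iff A (M * q * r) (Ft A (M * r)) heq' heq'.le ⟨_, hβ⟩ 3).mpr hQ'
  have h2 : resTo A (M * q * r) (Ft A (M * r)) heq'.le ⟨_, hβ⟩
      = betaT A M r (resTo A (M * q) (Ft A M) heq.le u) := by
    apply Subtype.ext
    rw [coe_resTo, coe_betaT, coe_resTo, gaussResF_apply, gaussResF_apply]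
    exact gaussRedV_qExpand A r ⟨_, u.2⟩ _
  rw [h2] at h1
  -- the core
  have h3 := pushNorm_core A M q r hq hqM hr hrN hA heq.le t ht D u
    (resTo_ne_zero_of_gaussRes A (M * q) (Ft A M) heq.le u hu) hD hT h1
  exact (dvd_ord_resTo_iff A (M * q) (Ft A M) heq heq.le u 3).mp h3

end Fermat.Agent.S38.P3.H52
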