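import Fermat.Agent.S38.P3.Defs2
import Fermat.Agent.S43.CompEis.H57_Desc
import Fermat.Agent.BADP.H74_HDropAbs

/-!
# S38 at `p = 3`, leaf DESC3 (helper66)

`stmt_CE_Desc3 : Stmt_CE_Desc3` : descent of the divisibility by `3` of the orders of a reduced
function from the level `3 N` to the level `N` (`3 ∤ N`), at a place of residue characteristic
`q ≠ 3`.

* `dvd_ord_of_not_dvd_degree` : for function fields `E ⊆ L` over an algebraically closed field
  and a prime `p ∤ [L : E]` : if `p ∣ ord_w (φ g)` for all places `w` of `L` then `p ∣ ord_v g`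
  for all places `v` of `E`  (norm: `[L : E] · ord_v g = ord_v (N (φ g))`);
* `dvd_ord_intermediate'` : the same for two intermediate fields;
* `relfinrank_redN_three` : `[F~_{3M} : F~_M] = 4` for `3 ∤ M`, `q ∤ M`.
-/

set_option autoImplicit false
set_option linter.style.haveILetI false
set_option linter.unusedSectionVars false
set_option synthInstance.maxHeartbeats 400000
set_option maxHeartbeats 1000000

noncomputable section

open AlgebraicCurve ModularCurve

namespace Fermat.Agent.S38.P3.H66D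

open Fermat.Agent.RED Fermat.Agent.NEB.H14 Fermat.Agent.NEB.H29

section Abs

variable {k E L : Type} [Field k] [Field E] [Field L] [Algebra k E] [Algebra k L] [IsAlgClosed k]

/-- Divisibility of all orders by a prime `p ∤ [L : E]` descends from `L` to `E`. -/
theorem dvd_ord_of_not_dvd_degree (hE : IsFF k E) (hL : IsFF k L) (φ : E →ₐ[k] L)
    (p : ℕ) (hp : p.Prime) (hdeg : ¬ p ∣ finrankAlong k φ)
    (g : E) (h : ∀ w : Place k L, (p : ℤ) ∣ w.ord (φ g)) (v : Place k E) :
    (p : ℤ) ∣ v.ord g := by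
  by_cases hg : g = 0
  · rw [hg, Place.ord_zero]
    exact dvd_zero _
  have hφg : φ g ≠ 0 := fun h0 => hg ((map_eq_zero φ).1 h0)
  haveI : HasPrincipalDivisors k L := hasPD hL
  have hint := isIntegral_hom hE hL φ
  have hfin := finiteAlong_hom hE hL φ
  have hN := Fermat.Agent.RED.H51.stmt_FFB_norm k E L hE hL φ hfin
  have h1 := Fermat.Agent.BADP.H74.dvd_ord_normAlong φ hint hfin hN (p : ℤ) hφg v
    (fun w _ => h w)
  rw [Fermat.Agent.BADP.H74.normAlong_apply, ← zpow_natCast, Place.ord_zpow] at h1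
  have hpZ : Prime (p : ℤ) := Nat.prime_iff_prime_int.mp hp
  rcases hpZ.dvd_or_dvd h1 with h3 | h3
  · exfalso
    apply hdeg
    exact_mod_cast h3
  · exact h3

end Abs

section Inter

variable {k 𝕃 : Type} [Field k] [Field 𝕃] [Algebra k 𝕃] [IsAlgClosed k]

/-- Descent of divisibility of orders for two intermediate fields `K₁ ≤ K₂` of relative degree
prime to `p`. -/
theorem dvd_ord_intermediate' {K₁ K₂ : IntermediateField k 𝕃} (hle : K₁ ≤ K₂)
    (h₁ : IsFF k ↥K₁) (h₂ : IsFF k ↥K₂) (p : ℕ) (hp : p.Prime)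
    (hdeg : ¬ p ∣ K₁.relfinrank K₂) (g₁ : ↥K₁) (g₂ : ↥K₂) (hg : (g₂ : 𝕃) = (g₁ : 𝕃))
    (h : ∀ Q' : Place k ↥K₂, (p : ℤ) ∣ Q'.ord g₂) (Q : Place k ↥K₁) :
    (p : ℤ) ∣ Q.ord g₁ := by
  have e : IntermediateField.inclusion hle g₁ = g₂ := Subtype.ext hg.symm
  refine dvd_ord_of_not_dvd_degree h₁ h₂ (IntermediateField.inclusion hle) p hp ?_ g₁ ?_ Q
  · have h3 : finrankAlong k (IntermediateField.inclusion hle) = K₁.relfinrank K₂ :=
      Fermat.Agent.RED.H51.finrank_along_inclusion hle
    rw [h3]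
    exact hdeg
  · intro w
    rw [e]
    exact h w

end Inter

/-! ## The modular part -/

section Modular

open Fermat.Agent.BAD Fermat.Agent.S28.H73 Fermat.Agent.RED.H73
open Fermat.Agent.S43.CompEis.H57

variable {A : ValuationSubring (AlgebraicClosure ℚ)}

/-- `[F~_{3M} : F~_M] = 4` at levels prime to `q` and to `3`. -/
theorem relfinrank_redN_three {q M : ℕ} [NeZero M] [NeZero (M * 3)] (hq : q.Prime)
    (hq3 : q ≠ 3) (hqM : ¬ q ∣ M) (h3M : ¬ 3 ∣ M) (hA : A.LiesOverPrime q) :
    (redN A M).relfinrank (redN A (M * 3)) = 4 := by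
  have hqMr : ¬ q ∣ M * 3 := not_dvd_mul_of_ne hq Nat.prime_three (Ne.symm hq3) hqM
  have h1 := Fermat.Agent.RED.H36.relfinrank_level_eq (N := M) (M := M * 3) (Dvd.intro 3 rfl) hq
    hqMr A hA
  show (redField A (modularFunctionFieldBar M) (hasScale_laurentBaseChange A M)).relfinrank
    (redField A (modularFunctionFieldBar (M * 3)) (hasScale_laurentBaseChange A (M * 3))) = 4
  rw [← h1, Fermat.Agent.BAD.H82.relfinrank_FM_FN 3 M Nat.prime_three h3M]

/-- **DESC3**. -/
theorem stmt_CE_Desc3 : Stmt_CE_Desc3 := by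
  intro q hq hq3 N N' _ _ hN' h3N hq2 A hA f f' hff' h Q
  haveI : IsAlgClosed (kV A) := isAlgClosed_kV A
  have hNN' : N ∣ N' := ⟨3, by rw [hN', mul_comm]⟩
  have hle : redN A N ≤ redN A N' :=
    Fermat.Agent.RED.H51.redField_mono A (S18.modularFunctionFieldBar_mono hNN') _ _
  have hg : ((gaussRes A N' f' : ↥(redN A N')) : LaurentSeries (kV A))
      = ((gaussRes A N f : ↥(redN A N)) : LaurentSeries (kV A)) := by
    show gaussResF A (hasScale_laurentBaseChange A N') f'
      = gaussResF A (hasScale_laurentBaseChange A N) f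
    rw [gaussResF_apply, gaussResF_apply]
    congr 1
    exact Subtype.ext hff'
  obtain ⟨h₁, h₂, hdeg⟩ : IsFF (kV A) ↥(redN A N) ∧ IsFF (kV A) ↥(redN A N') ∧
      (redN A N).relfinrank (redN A N') = 4 := by
    by_cases hqN : q ∣ N
    · obtain ⟨M, hM⟩ := hqN
      have hNM : N = M * q := by rw [hM, mul_comm]
      have hN'M : N' = M * 3 * q := by rw [hN', hNM]; ring
      subst hNM
      subst hN'M
      have hqM : ¬ q ∣ M := by
        intro hd
        apply hq2
        rw [pow_two]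
        exact Nat.mul_dvd_mul hd (dvd_refl q)
      have h3M : ¬ 3 ∣ M := fun hd => h3N (hd.mul_right q)
      have hM0 : NeZero M := ⟨fun h0 => NeZero.ne (M * q) (by rw [h0, zero_mul])⟩
      have hMr0 : NeZero (M * 3) := ⟨Nat.mul_ne_zero (NeZero.ne M) (by norm_num)⟩
      have hqMr : ¬ q ∣ M * 3 := not_dvd_mul_of_ne hq Nat.prime_three (Ne.symm hq3) hqM
      rw [redN_mul_eq hq hqM hA, redN_mul_eq hq hqMr hA]
      exact ⟨isFF_redN_of_not_dvd hq hqM hA, isFF_redN_of_not_dvd hq hqMr hA,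
        relfinrank_redN_three hq hq3 hqM h3M hA⟩
    · have hN'' : N' = N * 3 := by rw [hN', mul_comm]
      subst hN''
      have hqNr : ¬ q ∣ N * 3 := not_dvd_mul_of_ne hq Nat.prime_three (Ne.symm hq3) hqN
      exact ⟨isFF_redN_of_not_dvd hq hqN hA, isFF_redN_of_not_dvd hq hqNr hA,
        relfinrank_redN_three hq hq3 hqN h3N hA⟩
  exact dvd_ord_intermediate' hle h₁ h₂ 3 Nat.prime_three (by rw [hdeg]; norm_num)
    (gaussRes A N f) (gaussRes A N' f') hg h Q

end Modular

end Fermat.Agent.S38.P3.H66D
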