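/-
S38 at `p = 3`, leaf COMP-EIS3 (owner helper60): **COMP-EIS at `p = 3`, strong form,
unconditional.**

`stmt_CompEis3S : Stmt_CompEis3S` from
* NE       (helper66 `H66.stmt_NE0`, helper57 `H57.stmt_NE`),
* COORD3   (helper60, `H60.stmt_CE_Coord3`; helper21's COORD, helper11's ARITH-0),
* DESC3    (helper66, `H66D.stmt_CE_Desc3`),
* PUSH-NORM (helper52, `H52.stmt_PushNorm`; helper35's NORM-RED, helper74's H-DROP),
* HECKE / NORM-VAL (helper9), W-UP (helper80).
-/
import Fermat.Agent.S38.P3.H60_Push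
import Fermat.Agent.S38.P3.H57_NEFinal
import Fermat.Agent.S38.P3.H66_Desc3
import Fermat.Agent.S38.P3.H52_PushNorm

set_option autoImplicit false

namespace Fermat.Agent.S38.P3.H60

/-- **COMP-EIS3, strong form.** -/
theorem stmt_CompEis3S : Stmt_CompEis3S :=
  stmt_CompEis3S_of Fermat.Agent.S38.P3.H57.stmt_NE Fermat.Agent.S38.P3.H66D.stmt_CE_Desc3
    Fermat.Agent.S38.P3.H52.stmt_PushNorm

end Fermat.Agent.S38.P3.H60
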