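import Fermat.Agent.S41.H19_I3Core

/-!
# S38 at `p = 3`, STRONG witness: linear algebra core (helper57)

`exists_det_neg_one_trace_ne_zero`: let `ρ : G → GL(V)`, `V` a plane over `𝔽₃`, and suppose that
the image of `H = ker (det ρ)` spans `End V` and `H ≠ G`.  Then some `g` has `det ρ(g) = -1` and
`tr ρ(g) ≠ 0`.

Proof.  Otherwise every `g ∉ H` has `ρ(g)² = 1` (Cayley–Hamilton), so for `g₁ ∉ H` fixed and
`h ∈ H`: `ρ(g₁) ρ(h) ρ(g₁) = ρ(h)⁻¹`; hence inversion is multiplicative on `ρ(H)`, `ρ(H)` is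
commutative, and so is its span `End V`: absurd.

`pow_of_trace_zero`: if `tr f = 0`, `det f = -1`, then `f ^ j = f` for odd `j`.
-/

set_option autoImplicit false

namespace Fermat.Agent.S38.P3.H57

open Module Fermat.Agent.S41.H19

/-- Elements of `ZMod 3`. -/
theorem zmod3_cases (d : ZMod 3) : d = 0 ∨ d = 1 ∨ d = -1 := by
  revert d
  decide

section

variable {V : Type*} [AddCommGroup V] [Module (ZMod 3) V]
variable {G : Type*} [Group G]

/-- The kernel of `det ∘ ρ`. -/
def detKer (ρ : G →* (V →ₗ[ZMod 3] V)) : Subgroup G where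
  carrier := {g | LinearMap.det (ρ g) = 1}
  one_mem' := by
    show LinearMap.det (ρ 1) = 1
    rw [map_one, map_one]
  mul_mem' := by
    intro a b (ha : LinearMap.det (ρ a) = 1) (hb : LinearMap.det (ρ b) = 1)
    show LinearMap.det (ρ (a * b)) = 1
    rw [map_mul, map_mul, ha, hb, mul_one]
  inv_mem' := by
    intro a (ha : LinearMap.det (ρ a) = 1)
    show LinearMap.det (ρ a⁻¹) = 1
    have h : LinearMap.det (ρ a⁻¹) * LinearMap.det (ρ a) = 1 := by
      rw [← map_mul, ← map_mul, inv_mul_cancel, map_one, map_one]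
    rwa [ha, mul_one] at h

theorem mem_detKer (ρ : G →* (V →ₗ[ZMod 3] V)) (g : G) :
    g ∈ detKer ρ ↔ LinearMap.det (ρ g) = 1 := Iff.rfl

theorem det_rho_ne_zero (ρ : G →* (V →ₗ[ZMod 3] V)) (g : G) : LinearMap.det (ρ g) ≠ 0 := by
  intro h0
  have h : LinearMap.det (ρ g⁻¹) * LinearMap.det (ρ g) = 1 := by
    rw [← map_mul, ← map_mul, inv_mul_cancel, map_one, map_one]
  rw [h0, mul_zero] at h
  exact zero_ne_one h

theorem det_eq_neg_one_of_notMem (ρ : G →* (V →ₗ[ZMod 3] V)) {g : G} (hg : g ∉ detKer ρ) :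
    LinearMap.det (ρ g) = -1 := by
  rcases zmod3_cases (LinearMap.det (ρ g)) with h | h | h
  · exact absurd h (det_rho_ne_zero ρ g)
  · exact absurd h hg
  · exact h

theorem notMem_detKer_of_det (ρ : G →* (V →ₗ[ZMod 3] V)) {g : G}
    (hg : LinearMap.det (ρ g) = -1) : g ∉ detKer ρ := by
  intro h
  rw [mem_detKer, hg] at h
  revert h
  decide

/-- `ker (det ρ)` has index two as soon as some determinant is `-1`. -/
theorem index_detKer (ρ : G →* (V →ₗ[ZMod 3] V)) {g₁ : G}
    (hg₁ : LinearMap.det (ρ g₁) = -1) : (detKer ρ).index = 2 := by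
  rw [Subgroup.index_eq_two_iff]
  refine ⟨g₁, fun b => ?_⟩
  by_cases hb : b ∈ detKer ρ
  · refine Or.inr ⟨hb, ?_⟩
    apply notMem_detKer_of_det
    rw [map_mul, map_mul, hg₁, (mem_detKer ρ b).1 hb, one_mul]
  · refine Or.inl ⟨?_, hb⟩
    rw [mem_detKer, map_mul, map_mul, hg₁, det_eq_neg_one_of_notMem ρ hb]
    norm_num

/-- Cayley–Hamilton: trace `0` and determinant `-1` give an involution. -/
theorem sq_eq_one_of_trace_zero (hV : finrank (ZMod 3) V = 2) (f : V →ₗ[ZMod 3] V)
    (ht : LinearMap.trace (ZMod 3) V f = 0) (hd : LinearMap.det f = -1) : f * f = 1 := by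
  rw [end_CH_two hV f, ht, hd, zero_smul, neg_smul, one_smul, zero_sub, neg_neg]

/-- An involution: odd powers. -/
theorem pow_odd_of_sq_eq_one {M : Type*} [Monoid M] (f : M) (hf : f * f = 1) (j : ℕ)
    (hj : Odd j) : f ^ j = f := by
  obtain ⟨m, rfl⟩ := hj
  rw [pow_succ, pow_mul, pow_two, hf, one_pow, one_mul]

/-- `(a x)² = 1` and `x x' = 1` give `a x a = x'`. -/
theorem conj_eq_of_mul_self {M : Type*} [Monoid M] (a x x' : M) (h : a * x * (a * x) = 1)
    (hx : x * x' = 1) : a * x * a = x' := by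
  calc a * x * a = a * x * a * (x * x') := by rw [hx, mul_one]
    _ = (a * x * (a * x)) * x' := by simp only [mul_assoc]
    _ = x' := by rw [h, one_mul]

/-- If conjugation by the involution `a` sends `x'` to `x`, `y'` to `y` and `x' y'` to `y x`,
then `x` and `y` commute. -/
theorem comm_of_conj {M : Type*} [Monoid M] (a x' y' x y : M) (haa : a * a = 1)
    (h1 : a * x' * a = x) (h2 : a * y' * a = y) (h3 : a * (x' * y') * a = y * x) :
    x * y = y * x := by
  rw [← h3, ← h1, ← h2]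
  calc a * x' * a * (a * y' * a) = a * x' * (a * a) * (y' * a) := by simp only [mul_assoc]
    _ = a * (x' * y') * a := by rw [haa]; simp only [mul_assoc, mul_one]

/-- `End V` is not commutative for a plane `V`. -/
theorem exists_not_commute (hV : finrank (ZMod 3) V = 2) :
    ∃ a b : V →ₗ[ZMod 3] V, a * b ≠ b * a := by
  have hfin : Module.Finite (ZMod 3) V := Module.finite_of_finrank_eq_succ hV
  let b : Module.Basis (Fin 2) (ZMod 3) V := Module.finBasisOfFinrankEq (ZMod 3) V hV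
  let T : (V →ₗ[ZMod 3] V) ≃ₐ[ZMod 3] Matrix (Fin 2) (Fin 2) (ZMod 3) :=
    LinearMap.toMatrixAlgEquiv b
  refine ⟨T.symm !![0, 1; 0, 0], T.symm !![0, 0; 1, 0], fun h => ?_⟩
  have h2 := congrArg T h
  rw [map_mul, map_mul, AlgEquiv.apply_symm_apply, AlgEquiv.apply_symm_apply] at h2
  have h3 := congrFun (congrFun h2 0) 0
  revert h3
  simp [Matrix.mul_apply, Fin.sum_univ_two]

/-- **Core.**  If the image of `ker (det ρ)` spans `End V` and some determinant is `-1`, then some
element has determinant `-1` and nonzero trace. -/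
theorem exists_det_neg_one_trace_ne_zero (hV : finrank (ZMod 3) V = 2)
    (ρ : G →* (V →ₗ[ZMod 3] V)) {g₁ : G} (hg₁ : LinearMap.det (ρ g₁) = -1)
    (hspan : Submodule.span (ZMod 3) (ρ '' (detKer ρ : Set G)) = ⊤) :
    ∃ g : G, LinearMap.det (ρ g) = -1 ∧ LinearMap.trace (ZMod 3) V (ρ g) ≠ 0 := by
  by_contra hcon
  push Not at hcon
  -- every element outside `H` is an involution
  have hinv : ∀ g : G, LinearMap.det (ρ g) = -1 → ρ g * ρ g = 1 := fun g hg =>
    sq_eq_one_of_trace_zero hV (ρ g) (hcon g hg) hg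
  have haa : ρ g₁ * ρ g₁ = 1 := hinv g₁ hg₁
  -- conjugation by `a = ρ g₁` inverts the image of `H`
  have hconj : ∀ h ∈ detKer ρ, ρ g₁ * ρ h * ρ g₁ = ρ h⁻¹ := by
    intro h hh
    have h1 : LinearMap.det (ρ (g₁ * h)) = -1 := by
      rw [map_mul, map_mul, hg₁, (mem_detKer ρ h).1 hh, mul_one]
    have h2 := hinv (g₁ * h) h1
    rw [map_mul] at h2
    have h4 : ρ h * ρ h⁻¹ = 1 := by rw [← map_mul, mul_inv_cancel, map_one]
    exact conj_eq_of_mul_self (ρ g₁) (ρ h) (ρ h⁻¹) h2 h4
  -- the image of `H` is commutative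
  have hcomm : ∀ h ∈ detKer ρ, ∀ h' ∈ detKer ρ, ρ h * ρ h' = ρ h' * ρ h := by
    intro h hh h' hh'
    have e1 := hconj h⁻¹ ((detKer ρ).inv_mem hh)
    have e2 := hconj h'⁻¹ ((detKer ρ).inv_mem hh')
    have e3 := hconj (h⁻¹ * h'⁻¹) ((detKer ρ).mul_mem ((detKer ρ).inv_mem hh)
      ((detKer ρ).inv_mem hh'))
    rw [inv_inv] at e1 e2
    rw [mul_inv_rev, inv_inv, inv_inv, map_mul, map_mul] at e3
    exact comm_of_conj (ρ g₁) (ρ h⁻¹) (ρ h'⁻¹) (ρ h) (ρ h') haa e1 e2 e3
  -- hence `End V` is commutative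
  have hall : ∀ x y : V →ₗ[ZMod 3] V, x * y = y * x := by
    have hx1 : ∀ h ∈ detKer ρ, ∀ y : V →ₗ[ZMod 3] V, ρ h * y = y * ρ h := by
      intro h hh y
      have hy : y ∈ Submodule.span (ZMod 3) (ρ '' (detKer ρ : Set G)) := by
        rw [hspan]; exact Submodule.mem_top
      induction hy using Submodule.span_induction with
      | mem y hy =>
        obtain ⟨h', hh', rfl⟩ := hy
        exact hcomm h hh h' hh'
      | zero => rw [mul_zero, zero_mul]
      | add y z _ _ hy hz => rw [mul_add, add_mul, hy, hz]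
      | smul c y _ hy => rw [mul_smul_comm, smul_mul_assoc, hy]
    intro x y
    have hx : x ∈ Submodule.span (ZMod 3) (ρ '' (detKer ρ : Set G)) := by
      rw [hspan]; exact Submodule.mem_top
    induction hx using Submodule.span_induction with
    | mem x hx =>
      obtain ⟨h, hh, rfl⟩ := hx
      exact hx1 h hh y
    | zero => rw [mul_zero, zero_mul]
    | add x z _ _ hx hz => rw [mul_add, add_mul, hx, hz]
    | smul c x _ hx => rw [mul_smul_comm, smul_mul_assoc, hx]
  obtain ⟨x, y, hxy⟩ := exists_not_commute hV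
  exact hxy (hall x y)

end

end Fermat.Agent.S38.P3.H57
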