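/-
S38 at `p = 3`, leaf COMP-EIS3 (helper60): the degeneracy map `β_r` from the level `M q` to a
level `M R q`, `r ∣ R`, and the slopes.

* `betaUp`         : `F_{M q} → F_{M R q}`, `f(t) ↦ f(t^r)`;
* `wq_comp_betaUp` : `w_q ∘ β = β ∘ w_q`;
* `isGaussUnit_betaUp`, `hasSlope_betaUp`, `galF_betaUp`, `dvd_ord_betaUp`.
-/
import Fermat.Agent.S43.CompEis.H60_Final
import Fermat.Agent.S43.CompEis.H9_NormVal
attribute [local instance 10000] SubalgebraClass.toAlgebra
attribute [local instance 10000] HahnSeries.powerSeriesAlgebra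

set_option autoImplicit false
set_option synthInstance.maxHeartbeats 400000
set_option maxHeartbeats 1000000
set_option linter.unusedSectionVars false
set_option linter.style.haveILetI false

noncomputable section

open AlgebraicCurve ModularCurve

namespace Fermat.Agent.S38.P3.H60

open Fermat.Agent.BAD Fermat.Agent.S24 Fermat.Agent.BAD.H88 Fermat.Agent.S43.BadQ
open Fermat.Agent.S28.H73 Fermat.Agent.RED.H73 Fermat.Agent.RED Fermat.Agent.S44
open Fermat.Agent.S43.CompEis.H60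

section BetaUp

variable (q M R r : ℕ) [NeZero (M * q)] [NeZero r] [NeZero (M * R * q)] (hrR : r ∣ R)

include hrR in
theorem level_dvd : M * q * r ∣ M * R * q := by
  obtain ⟨k, rfl⟩ := hrR
  exact ⟨k, by ring⟩

/-- `β_r` from the level `M q` to the level `M R q`, `r ∣ R`. -/
def betaUp : FN (M * q) →ₐ[Kbar] FN (M * R * q) :=
  (lift (level_dvd q M R r hrR)).comp (heckeBetaBar Kbar (M * q) r)

theorem coe_betaUp (x : FN (M * q)) :
    ((betaUp q M R r hrR x : FN (M * R * q)) : LaurentSeries Kbar)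
      = qExpand Kbar r (x : LaurentSeries Kbar) := by
  rw [betaUp, AlgHom.comp_apply, coe_lift, coe_heckeBetaBar]

theorem jdF_congr (N : ℕ) [NeZero N] {d d' : ℕ} [NeZero d] [NeZero d'] (h : d = d')
    (hd : d ∣ N) (hd' : d' ∣ N) : jdF N d hd = jdF N d' hd' := by
  subst h
  rfl

theorem betaUp_jdF (D D' : ℕ) [NeZero D] [NeZero D'] (hD : D ∣ M * q) (hD' : D' ∣ M * R * q)
    (h : D' = D * r) :
    betaUp q M R r hrR (jdF (M * q) D hD) = jdF (M * R * q) D' hD' := by
  subst h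
  apply Subtype.ext
  rw [coe_betaUp]
  show qExpand Kbar r (coeffEmb Kbar (qExpand ℚ D jq)) = coeffEmb Kbar (qExpand ℚ (D * r) jq)
  rw [coeffEmb_qExpand_jq, coeffEmb_qExpand_jq, qExpand_qExpand]
  exact qExpand_congr (mul_comm r D) _

variable (a b : ℤ) (hab : a * q + b * M = 1) (a' b' : ℤ)
  (hab' : a' * q + b' * ((M * R : ℕ) : ℤ) = 1) (hq : q.Prime)

include hab hab' hq in
/-- `w_q ∘ β_r = β_r ∘ w_q`. -/
theorem wq_comp_betaUp :
    (wq q (M * R) a' b' hab' hq).toAlgHom.comp (betaUp q M R r hrR) =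
      (betaUp q M R r hrR).comp (wq q M a b hab hq).toAlgHom := by
  have hr0 : 0 < r := Nat.pos_of_ne_zero (NeZero.ne r)
  apply algHom_ext_of_adjoin _ (adjoin_jdF (M * q))
  rintro x ⟨D, hD0, hD, rfl⟩
  rw [AlgHom.comp_apply, AlgHom.comp_apply]
  rcases dvd_cases q M a b hab hq D hD with ⟨e, he⟩ | ⟨d, e, rfl, he⟩
  · have hDpos : 0 < D := Nat.pos_of_ne_zero (NeZero.ne D)
    haveI : NeZero (D * q) := ⟨(Nat.mul_pos hDpos hq.pos).ne'⟩
    haveI : NeZero (D * r) := ⟨(Nat.mul_pos hDpos hr0).ne'⟩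
    haveI : NeZero (D * r * q) := ⟨(Nat.mul_pos (Nat.mul_pos hDpos hr0) hq.pos).ne'⟩
    have hDM : D ∣ M := ⟨e, he⟩
    have hDrMR : D * r ∣ M * R := Nat.mul_dvd_mul hDM hrR
    have h1 : (wq q M a b hab hq).toAlgHom (jdF (M * q) D hD)
        = jdF (M * q) (D * q) (Nat.mul_dvd_mul_right hDM q) :=
      wqHom_jdF q M a b hab hq D hDM
    have h2 : (wq q (M * R) a' b' hab' hq).toAlgHom
        (jdF (M * R * q) (D * r) (Dvd.dvd.mul_right hDrMR q))
        = jdF (M * R * q) (D * r * q) (Nat.mul_dvd_mul_right hDrMR q) :=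
      wqHom_jdF q (M * R) a' b' hab' hq (D * r) hDrMR
    rw [h1, betaUp_jdF q M R r hrR D (D * r) hD (Dvd.dvd.mul_right hDrMR q) rfl, h2,
      betaUp_jdF q M R r hrR (D * q) (D * r * q) _ (Nat.mul_dvd_mul_right hDrMR q) (by ring)]
  · have hdpos : 0 < d := by
      rcases Nat.eq_zero_or_pos d with h | h
      · exfalso; apply NeZero.ne (d * q); rw [h, zero_mul]
      · exact h
    haveI : NeZero d := ⟨hdpos.ne'⟩
    haveI : NeZero (d * r) := ⟨(Nat.mul_pos hdpos hr0).ne'⟩
    haveI : NeZero (d * r * q) := ⟨(Nat.mul_pos (Nat.mul_pos hdpos hr0) hq.pos).ne'⟩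
    have hdM : d ∣ M := ⟨e, he⟩
    have hdrMR : d * r ∣ M * R := Nat.mul_dvd_mul hdM hrR
    have h1 : (wq q M a b hab hq).toAlgHom (jdF (M * q) (d * q) hD)
        = jdF (M * q) d (Dvd.dvd.mul_right hdM q) :=
      wqHom_jdF_mul q M a b hab hq d hdM
    have h2 : (wq q (M * R) a' b' hab' hq).toAlgHom
        (jdF (M * R * q) (d * r * q) (Nat.mul_dvd_mul_right hdrMR q))
        = jdF (M * R * q) (d * r) (Dvd.dvd.mul_right hdrMR q) :=
      wqHom_jdF_mul q (M * R) a' b' hab' hq (d * r) hdrMR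
    rw [h1, betaUp_jdF q M R r hrR (d * q) (d * r * q) hD
        (Nat.mul_dvd_mul_right hdrMR q) (by ring), h2,
      betaUp_jdF q M R r hrR d (d * r) _ (Dvd.dvd.mul_right hdrMR q) rfl]

/-! ### Gauss units, slopes, inertia, orders -/

variable (A : ValuationSubring (AlgebraicClosure ℚ))

/-- `β` maps Gauss units to Gauss units. -/
theorem isGaussUnit_betaUp {x : FN (M * q)} (hx : IsGaussUnit A (M * q) x) :
    IsGaussUnit A (M * R * q) (betaUp q M R r hrR x) := by
  have h1 := Fermat.Agent.S43.CompEis.H9.isGaussUnit_beta r A (M * q) x hx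
  have hxy : ((betaUp q M R r hrR x : FN (M * R * q)) : LaurentSeries Kbar)
      = ((heckeBetaBar Kbar (M * q) r x : FN (M * q * r)) : LaurentSeries Kbar) := by
    rw [coe_betaUp, coe_heckeBetaBar]
  exact (isGaussUnit_transfer hxy).mpr h1

include hab hab' hq in
theorem wS_betaUp (x : FN (M * q)) :
    wS q (M * R) a' b' hab' hq • betaUp q M R r hrR x
      = betaUp q M R r hrR (wS q M a b hab hq • x) :=
  congrArg (fun g : FN (M * q) →ₐ[Kbar] FN (M * R * q) => g x)
    (wq_comp_betaUp q M R r hrR a b hab a' b' hab' hq)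

/-- The slope of `β f` is the slope of `f`. -/
theorem hasSlope_betaUp {x : FN (M * q)} {k : ℤ} (h : HasSlope A q M a b hab hq x k) :
    HasSlope A q (M * R) a' b' hab' hq (betaUp q M R r hrR x) k := by
  obtain ⟨c₁, c₂, h1, h2, h3⟩ := h
  refine ⟨c₁, c₂, ?_, ?_, h3⟩
  · have := isGaussUnit_betaUp q M R r hrR A h1
    rwa [map_mul, AlgHom.commutes] at this
  · have := isGaussUnit_betaUp q M R r hrR A h2
    rwa [map_mul, AlgHom.commutes, ← wS_betaUp q M R r hrR a b hab a' b' hab' hq] at this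

/-- `β` commutes with the Galois action. -/
theorem galF_betaUp_fixed {x : FN (M * q)} (σ : GalQ) (h : galF (M * q) σ • x = x) :
    galF (M * R * q) σ • betaUp q M R r hrR x = betaUp q M R r hrR x := by
  apply Subtype.ext
  have h1 := congrArg (Subtype.val : ↥(FNbar (M * q)) → LaurentSeries (AlgebraicClosure ℚ)) h
  rw [coe_arithmeticGalois_smul] at h1 ⊢
  rw [coe_betaUp, Fermat.Agent.GTor.H2.coeffMap_qExpand, h1]

/-- Divisibility of the orders is preserved by `β`. -/
theorem dvd_ord_betaUp (n : ℤ) {x : FN (M * q)}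
    (hx : ∀ P : Place (AlgebraicClosure ℚ) ↥(FNbar (M * q)), n ∣ P.ord x)
    (P' : Place (AlgebraicClosure ℚ) ↥(FNbar (M * R * q))) :
    n ∣ P'.ord (betaUp q M R r hrR x) := by
  have hint : (betaUp q M R r hrR).toRingHom.IsIntegral :=
    (H51.stmt_FFB_finite _ _ _ (H95.stmt_HKA_isFF (M * q)) (H95.stmt_HKA_isFF (M * R * q)) _).1
  rw [Place.ord_restrictAlong (betaUp q M R r hrR) hint P' x]
  exact Dvd.dvd.mul_left (hx _) _

end BetaUp

end Fermat.Agent.S38.P3.H60
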