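/-
S38 at `p = 3`, leaf COMP-EIS3 (helper60): COORD at `p = 3`.

Level `M q`, `q ∤ M` tame (`H91.TameAt M q`), `q ≠ 3`, `r ∣ M` a prime `≡ 2 mod 3`.  From NE
(`Stmt_NE`: every zero of `j~` in the reduced field of level `M` has order divisible by `3`):

* `coord_twelve`   : helper21's COORD with the thickness exposed: `n · a' = 12`,
                     `a' = ord_s (rd unitF)` (same proof as `BADP.H21.coord_modS_core`);
* `three_dvd_unit` : `3 ∣ ord_s (rd unitF)` at every node `s`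
                     (`rd unitF = H(j~)`, `H = X^{4a} (X - 1728)^{6b} g^{12}`; `q = 2`: `j~`);
* `stmt_CE_Coord3` : `Stmt_CE_Coord 3 q M ..`.
-/
import Fermat.Agent.S38.P3.Defs
import Fermat.Agent.S43.CompEis.H60_CoordWire
import Fermat.Agent.BADP.H21_CoordFinal
import Fermat.Agent.BAD.H30_UnitGaussSS

set_option autoImplicit false
set_option synthInstance.maxHeartbeats 400000
set_option maxHeartbeats 1000000
set_option linter.style.haveILetI false
set_option linter.unusedSectionVars false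

noncomputable section

open HahnSeries IntermediateField AlgebraicCurve ModularCurve Polynomial
open Fermat.Agent.S28.H73 Fermat.Agent.RED.H73 Fermat.Agent.RED Fermat.Agent.S24
open Fermat.Agent.BAD.H88

namespace Fermat.Agent.S38.P3.H60

open Fermat.Agent.BAD Fermat.Agent.BAD.H91 Fermat.Agent.S15.Desc.H67
open Fermat.Agent.BADP Fermat.Agent.BADP.H21 Fermat.Agent.BAD.H21

attribute [local instance 5000] SubalgebraClass.toAlgebra
attribute [local instance 10000] SubalgebraClass.toAlgebra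
attribute [local instance 10000] HahnSeries.powerSeriesAlgebra

section Twelve

variable (A : ValuationSubring Kbar) (q M : ℕ) (a b : ℤ) (hab : a * q + b * M = 1)
  (hq : q.Prime) [NeZero M] [NeZero (M * q)] [NeZero q] (hA : A.LiesOverPrime q)
  (hqM : ¬ q ∣ M) (ht : TameAt M q)

/-- **COORD with the thickness**: at every node `s` of the modular datum of level `M q` there is
an inertia-fixed annulus coordinate of thickness `q ^ n` with `n · ord_s (rd unitF) = 12`. -/
theorem coord_twelve {s : Place (kV A) (F1 A q M) × Place (kV A) (F1 A q M)}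
    (hs : s ∈ (theS A q M a b hab hq hA hqM ht).nodes) :
    ∃ (n a' : ℕ) (t : FN (M * q)), 0 < n ∧ n * a' = 12 ∧
      s.1.ord (red1 A q M ⟨Fermat.Agent.BAD.H30.unitF (M * q) q (Dvd.intro_left M rfl),
        Fermat.Agent.BAD.H30.unitF_mem_gaussV A (M * q) q (Dvd.intro_left M rfl)⟩) = a' ∧
      (theS A q M a b hab hq hA hqM ht).IsAnnCoord s t ((q : Kbar) ^ n) ∧
      ∀ σ ∈ A.inertiaSubgroupIn ℚ, galF (M * q) σ • t = t := by
  haveI : IsAlgClosed (kV A) := isAlgClosed_kV A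
  have hd : q ∣ M * q := Dvd.intro_left M rfl
  have htot := totModAt A q M a b hab hq hA hqM ht
  have hCusp := cuspHyp A q M a b hab hq hA hqM ht
  have hK0' := k0At_of_isK0Lift A q M a b hab hq hA hqM ht
    (isK0Lift_theS A q M a b hab hq hA hqM ht) s
  obtain ⟨g, g₁, c, c₁, hg, hg₁, hnum⟩ := modS_genus A q M a b hab hq hA hqM ht htot
  obtain ⟨hU, hUzf, hU₂, hpos⟩ := modS_unit A q M a b hab hq hA hqM ht htot hCusp hd hs
  obtain ⟨a', ha'⟩ : ∃ a' : ℕ, s.1.ord ((modS A q M a b hab hq hA hqM ht htot).c₁.rd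
      (Fermat.Agent.BAD.H30.unitF (M * q) q hd)) = a' :=
    ⟨_, (Int.toNat_of_nonneg hpos.le).symm⟩
  have ha0 : 0 < a' := by
    rw [ha'] at hpos
    exact_mod_cast hpos
  have hq0 : (q : Kbar) ≠ 0 := Nat.cast_ne_zero.2 hq.ne_zero
  have hqV : algebraMap Kbar (FN (M * q)) (q : Kbar)
      ∈ (modS A q M a b hab hq hA hqM ht htot).c₁.V := q_mem_V1 A q M
  have hqr : (modS A q M a b hab hq hA hqM ht htot).c₁.rd
      (algebraMap Kbar (FN (M * q)) (q : Kbar)) = 0 := by
    rw [modS_rd₁ A q M a b hab hq hA hqM ht htot (q_mem_V1 A q M)]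
    exact red1_q A q M hA _
  have hdisc : ∀ f ∈ H15.fixF (M * q) (inertiaI A),
      f ∈ (modS A q M a b hab hq hA hqM ht htot).c₂.V →
      (modS A q M a b hab hq hA hqM ht htot).c₂.rd f = 0 →
      f / algebraMap Kbar (FN (M * q)) (q : Kbar)
        ∈ (modS A q M a b hab hq hA hqM ht htot).c₂.V := by
    intro f hf h h0
    refine disc_fix A q M a b hab hq hA hf h ?_
    rw [← modS_rd₂ A q M a b hab hq hA hqM ht htot h]
    exact h0
  obtain ⟨t, htF, n, hn, hcoord, hna⟩ :=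
    exists_isAnnCoord_of_goodLift (modS A q M a b hab hq hA hqM ht htot) (ffL q M)
      (ff1 A q M a b hab hq hA hqM ht) (ff1 A q M a b hab hq hA hqM ht) hg hg₁ hg₁ hnum hs
      hq0 hqV hqr (H15.fixF (M * q) (inertiaI A)) (q_mem_fix A q M) hK0' hdisc hU hUzf hU₂
      ha0 ha'
  refine ⟨n, a', t, hn, hna, ?_, hcoord, fun σ hσ => htF σ hσ⟩
  rw [← ha', modS_rd₁ A q M a b hab hq hA hqM ht htot hU.1]

end Twelve

/-! ### The modular unit at the zeros of `j~` -/

section Unit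

variable (A : ValuationSubring Kbar) (q M : ℕ) [NeZero M] [NeZero (M * q)] [NeZero q]

/-- The Gauss reduction of the modular unit `Δ(t)/Δ(t^q)` of level `M q`. -/
abbrev Ubar : F1 A q M :=
  red1 A q M ⟨Fermat.Agent.BAD.H30.unitF (M * q) q (Dvd.intro_left M rfl),
    Fermat.Agent.BAD.H30.unitF_mem_gaussV A (M * q) q (Dvd.intro_left M rfl)⟩

/-- `j~` in the reduced field of level `M q`. -/
abbrev jb : F1 A q M := H21_jt (M * q) A

theorem Ubar_ne_zero : Ubar A q M ≠ 0 :=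
  Fermat.Agent.BAD.H30.gaussRes_unitF_ne_zero A (M * q) q (Dvd.intro_left M rfl)

variable (hq : q.Prime) (hA : A.LiesOverPrime q)

include hq hA in
/-- `q ≥ 5`: `rd unitF = H(j~)`, `H = X^{4a} (X - 1728)^{6b} g^{12}` the supersingular
polynomial. -/
theorem Ubar_eq_aeval (h5 : 5 ≤ q) :
    ∃ d : H21_SSData (kV A) (H21_ssM q) (H21_ssA q) (H21_ssB q),
      Ubar A q M = aeval (jb A q M) d.H := by
  haveI : Fact q.Prime := ⟨hq⟩
  haveI : CharP (kV A) q := Fermat.Agent.BAD.H82.charP_kV A hq hA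
  haveI : IsAlgClosed (kV A) := isAlgClosed_kV A
  obtain ⟨d⟩ := H21_exists_ssData (F := kV A) (ℓ := q) h5
  have hw := H21_ss_weight hq h5
  refine ⟨d, Subtype.ext ?_⟩
  rw [H21_coe_aeval_jt]
  have h1 := Fermat.Agent.BAD.H30.gaussRes_unitF_char A (M * q) q hA (Dvd.intro_left M rfl)
  have h2 := H21_aeval_jqModC d.natDegree_H_le d.hev_H_series
  rw [← hw] at h2
  rw [h2, ← Fermat.Agent.BAD.H30.deltaR_eq_DL]
  exact h1

include hq hA in
/-- `q = 2`: `rd unitF = j~`. -/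
theorem Ubar_eq_two (h2 : q = 2) : Ubar A q M = jb A q M := by
  haveI : Fact q.Prime := ⟨hq⟩
  apply Subtype.ext
  have h1 := Fermat.Agent.BAD.H30.gaussRes_unitF_small A (M * q) q hA (Dvd.intro_left M rfl)
    (Or.inl h2)
  have h3 : q - 1 = 1 := by omega
  rw [h3, pow_one] at h1
  rw [show ((jb A q M : F1 A q M) : LaurentSeries (kV A)) = jqModC (kV A) from red_jF A (M * q)]
  exact h1

include hq hA in
/-- `q ≥ 5`, `q ≡ 2 mod 3`: at a zero `z` of `j~`, `ord_z (rd unitF) = 4 ord_z (j~)`. -/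
theorem ord_unit_of_zero (h5 : 5 ≤ q) (h3 : q % 3 = 2) (z : Place (kV A) (F1 A q M))
    (hz : 0 < z.ord (jb A q M)) : z.ord (Ubar A q M) = 4 * z.ord (jb A q M) := by
  obtain ⟨d, hd⟩ := Ubar_eq_aeval A q M hq hA h5
  have ha : H21_ssA q = 1 := by
    unfold H21_ssA
    rw [if_pos h3]
  set Q : (kV A)[X] := (X - Polynomial.C (1728 : kV A)) ^ (6 * H21_ssB q) * d.g ^ 12 with hQ
  have h4 : 4 * H21_ssA q = 4 := by rw [ha]
  have hH : d.H = X ^ 4 * Q := by
    rw [H21_SSData.H, h4, hQ, mul_assoc]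
  have hQ0 : Q.coeff 0 ≠ 0 := by
    rw [coeff_zero_eq_eval_zero, hQ, eval_mul, eval_pow, eval_pow, eval_sub, eval_X, eval_C,
      zero_sub]
    refine mul_ne_zero (pow_ne_zero _ (neg_ne_zero.mpr d.h1728)) (pow_ne_zero _ ?_)
    exact d.not_isRoot_zero
  obtain ⟨h1, h2⟩ := Fermat.Agent.RED.H51.ord_aeval_of_coeff_zero_ne z hz hQ0
  have hj0 : jb A q M ≠ 0 := Fermat.Agent.RED.H51.ne_zero_of_ord_ne_zero z hz.ne'
  rw [hd, hH, map_mul, map_pow, aeval_X, z.ord_mul (pow_ne_zero _ hj0) h1,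
    Fermat.Agent.RED.H51.ord_pow, h2, add_zero]
  norm_num

include hq hA in
/-- **`3 ∣ ord_z (rd unitF)`** at a place `z` which is not a pole of `j~`, if the zeros of `j~`
have orders divisible by `3`; `q ≠ 3` tame. -/
theorem three_dvd_ord_unit (hq3 : q ≠ 3) (ht : TameAt M q) (z : Place (kV A) (F1 A q M))
    (hz0 : 0 ≤ z.ord (jb A q M))
    (hNE : 0 < z.ord (jb A q M) → (3 : ℤ) ∣ z.ord (jb A q M)) :
    (3 : ℤ) ∣ z.ord (Ubar A q M) := by
  have hj : (3 : ℤ) ∣ z.ord (jb A q M) := by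
    rcases hz0.lt_or_eq with h | h
    · exact hNE h
    · rw [← h]
      exact dvd_zero _
  rcases ht with h5 | ⟨h3, -⟩ | ⟨h2, -⟩
  · obtain ⟨d, hd⟩ := Ubar_eq_aeval A q M hq hA h5
    have hU0 := Ubar_ne_zero A q M
    rw [hd, H21_SSData.H, map_mul, map_mul, map_pow, map_pow, map_pow, aeval_X, map_sub,
      aeval_X, aeval_C] at hU0
    have f1 := left_ne_zero_of_mul (left_ne_zero_of_mul hU0)
    have f2 := right_ne_zero_of_mul (left_ne_zero_of_mul hU0)
    have f3 := right_ne_zero_of_mul hU0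
    rw [hd, H21_SSData.H, map_mul, map_mul, map_pow, map_pow, map_pow, aeval_X, map_sub,
      aeval_X, aeval_C, z.ord_mul (mul_ne_zero f1 f2) f3, z.ord_mul f1 f2,
      Fermat.Agent.RED.H51.ord_pow, Fermat.Agent.RED.H51.ord_pow, Fermat.Agent.RED.H51.ord_pow]
    refine dvd_add (dvd_add ?_ ?_) ?_
    · exact Dvd.dvd.mul_left hj _
    · push_cast
      exact ⟨2 * H21_ssB q * z.ord (jb A q M - algebraMap (kV A) (F1 A q M) 1728), by ring⟩
    · push_cast
      exact ⟨4 * z.ord (aeval (jb A q M) d.g), by ring⟩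
  · exact absurd h3 hq3
  · rw [Ubar_eq_two A q M hq hA h2]
    exact hj

end Unit

/-! ### COORD at `p = 3` -/

theorem not_three_dvd_of_mul_eq {n a' : ℕ} (h : n * a' = 12) (h3 : (3 : ℤ) ∣ (a' : ℤ)) :
    ¬ 3 ∣ n := by
  intro hn
  have h3' : 3 ∣ a' := by exact_mod_cast h3
  obtain ⟨k, rfl⟩ := hn
  obtain ⟨l, rfl⟩ := h3'
  have : 9 * (k * l) = 12 := by rw [← h]; ring
  omega

/-- **COORD at `p = 3`**, at a tame level `M q`, `q ≠ 3`, at which the zeros of `j~` have orders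
divisible by `3`. -/
theorem stmt_CE_Coord3_of (q M : ℕ) (a b : ℤ) (hab : a * q + b * M = 1) (hq : q.Prime)
    [NeZero (M * q)] (hq3 : q ≠ 3) (hqM : ¬ q ∣ M) (ht : TameAt M q)
    (hNE : ∀ A : ValuationSubring (AlgebraicClosure ℚ), A.LiesOverPrime q →
      ∀ z : Place (kV A) ↥(redField A (FNbar M) (hasScale_laurentBaseChange A M)),
        haveI : NeZero M := ⟨fun h => NeZero.ne (M * q) (by rw [h, zero_mul])⟩
        0 < z.ord (H91.jRed A M) → (3 : ℤ) ∣ z.ord (H91.jRed A M)) :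
    Fermat.Agent.S43.CompEis.H60.Stmt_CE_Coord 3 q M a b hab hq := by
  intro A hA
  haveI : NeZero M := ⟨fun h => NeZero.ne (M * q) (by rw [h, zero_mul])⟩
  haveI : NeZero q := ⟨hq.ne_zero⟩
  have hS := Fermat.Agent.S43.CompEis.H60.isModDatum_theS A q M a b hab hq hA hqM ht
  refine ⟨F1 A q M, inferInstance, inferInstance,
    Fermat.Agent.BADP.H21.theS A q M a b hab hq hA hqM ht,
    hS.mem₁, hS.red₁, hS.mem₂, hS.inertial, ?_⟩
  intro s hs
  obtain ⟨n, a', t, -, hna, ha', hcoord, hfix⟩ := coord_twelve A q M a b hab hq hA hqM ht hs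
  refine ⟨n, t, not_three_dvd_of_mul_eq hna ?_, hcoord, hfix⟩
  rw [← ha']
  have hnode := ((modS_mem_nodes A q M a b hab hq hA hqM ht
    (totModAt A q M a b hab hq hA hqM ht)).mp hs).1
  have hz0 := ord_jRed_nonneg_of_isNode A q M a b hab hq hA hqM ht
    (totModAt A q M a b hab hq hA hqM ht) (cuspHyp A q M a b hab hq hA hqM ht) hnode
  refine three_dvd_ord_unit A q M hq hA hq3 ht s.1 hz0 ?_
  intro hpos
  have e := kappa_ord_jRed A q M a b hab hq hA s.1
  have h1 := hNE A hA (kappa A q M a b hab hq hA s.1) (by rw [e]; exact hpos)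
  rw [e] at h1
  exact h1

/-- **COORD3**: COORD at `p = 3` from NE, at a tame level `M q`, `q ≠ 3`, with a prime
`r ≡ 2 mod 3` dividing `M`. -/
theorem stmt_CE_Coord3 (hNE : Stmt_NE) (q M : ℕ) (a b : ℤ) (hab : a * q + b * M = 1)
    (hq : q.Prime) [NeZero (M * q)] (hq3 : q ≠ 3) (hqM : ¬ q ∣ M) (ht : TameAt M q)
    (r : ℕ) (hr : r.Prime) (hr3 : r % 3 = 2) (hrM : r ∣ M) :
    Fermat.Agent.S43.CompEis.H60.Stmt_CE_Coord 3 q M a b hab hq :=
  stmt_CE_Coord3_of q M a b hab hq hq3 hqM ht fun A hA z hz =>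
    haveI : NeZero M := ⟨fun h => NeZero.ne (M * q) (by rw [h, zero_mul])⟩
    hNE q M r hq hqM hr hr3 hrM A hA z hz

end Fermat.Agent.S38.P3.H60
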