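/-
S38 at `p = 3`, leaf COMP-EIS3 (helper60): the assembly.

`compEisAt3S_core` : COMP-EIS at `p = 3`, level `M q`, strong form, from
* HECKE at the level `M q` (helper9), at the auxiliary prime `r ≡ 2 mod 3`, `t_r ≢ 0 mod 3`,
* COORD at `p = 3` at a level `M R q`, `r ∣ R` (`Stmt_CE_Coord 3 q (M R)`, from NE),
* the descent `hdesc` from the level `M R q` to the level `M q r`,
* PUSH-NORM (`Stmt_PushNorm`).
-/
import Fermat.Agent.S38.P3.H60_Coord3
import Fermat.Agent.S38.P3.H60_BetaUp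
import Fermat.Agent.S38.P3.Defs3
import Fermat.Agent.S43.CompEis.H9_Hecke
import Fermat.Agent.S43.CompEis.H80_WUp
attribute [local instance 10000] SubalgebraClass.toAlgebra
attribute [local instance 10000] HahnSeries.powerSeriesAlgebra

set_option autoImplicit false
set_option synthInstance.maxHeartbeats 400000
set_option maxHeartbeats 1000000
set_option linter.unusedSectionVars false
set_option linter.style.haveILetI false

noncomputable section

open AlgebraicCurve ModularCurve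

namespace Fermat.Agent.S38.P3.H60

open Fermat.Agent.BAD Fermat.Agent.S24 Fermat.Agent.BAD.H88 Fermat.Agent.S43.BadQ
open Fermat.Agent.S28.H73 Fermat.Agent.RED.H73 Fermat.Agent.RED Fermat.Agent.S44
open Fermat.Agent.S43.CompEis.H60 Fermat.Agent.S43.CompEis

section PushUp

variable {A : ValuationSubring (AlgebraicClosure ℚ)}
variable {q M R r : ℕ} [NeZero (M * q)] [NeZero r] [NeZero (M * R * q)] (hrR : r ∣ R)
variable {a b : ℤ} {hab : a * q + b * M = 1} {a' b' : ℤ}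
  {hab' : a' * q + b' * ((M * R : ℕ) : ℤ) = 1} {hq : q.Prime}

include hab hrR in
/-- **PUSH-UP**: slope `≡ 0 mod 3` at the level `M q` gives orders `≡ 0 mod 3` of the reduction
of `β_r f` at the level `M R q` with coordinates. -/
theorem pushUp_core (hA : A.LiesOverPrime q)
    (hC : Stmt_CE_Coord 3 q (M * R) a' b' hab' hq) {f : FN (M * q)}
    (hffix : ∀ σ ∈ A.inertiaSubgroupIn ℚ, galF (M * q) σ • f = f)
    (hdiv : ∀ P : Place (AlgebraicClosure ℚ) ↥(FNbar (M * q)), (3 : ℤ) ∣ P.ord f)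
    {k : ℤ} (hk : HasSlope A q M a b hab hq f k) (h3k : (3 : ℤ) ∣ k) :
    ∃ c : AlgebraicClosure ℚ, c ≠ 0 ∧
      IsGaussUnit A (M * q) (algebraMap (AlgebraicClosure ℚ) ↥(FNbar (M * q)) c * f) ∧
      ∀ y : ↥(gaussV A (M * R * q)),
        (((y : ↥(gaussV A (M * R * q))) : ↥(FNbar (M * R * q))) :
            LaurentSeries (AlgebraicClosure ℚ))
          = qExpand (AlgebraicClosure ℚ) r
            ((algebraMap (AlgebraicClosure ℚ) ↥(FNbar (M * q)) c * f : ↥(FNbar (M * q))) :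
              LaurentSeries (AlgebraicClosure ℚ)) →
        ∀ Q' : Place (kV A)
            ↥(redField A (FNbar (M * R * q)) (hasScale_laurentBaseChange A (M * R * q))),
          (3 : ℤ) ∣ Q'.ord (gaussRes A (M * R * q) y) := by
  have hkB := hasSlope_betaUp q M R r hrR a b hab a' b' hab' hq A hk
  have hfixB : ∀ σ ∈ A.inertiaSubgroupIn ℚ,
      galF (M * R * q) σ • betaUp q M R r hrR f = betaUp q M R r hrR f :=
    fun σ hσ => galF_betaUp_fixed q M R r hrR σ (hffix σ hσ)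
  have hdivB := dvd_ord_betaUp q M R r hrR 3 hdiv
  obtain ⟨c, hcu, hc0, hQ⟩ := fin_of_coord 3 Nat.prime_three hA hC hfixB hdivB hkB h3k
  obtain ⟨c₁, c₂, h1, -, -⟩ := hk
  have h1B := isGaussUnit_betaUp q M R r hrR A h1
  rw [map_mul, AlgHom.commutes] at h1B
  have hval := hcu.valuation_eq h1B
  have hc₁0 : c₁ ≠ 0 := by
    rintro rfl
    exact h1.1 (by rw [map_zero, zero_mul])
  have hcu0 : IsGaussUnit A (M * q)
      (algebraMap (AlgebraicClosure ℚ) ↥(FNbar (M * q)) c * f) := by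
    have h2 : IsGaussUnit A (M * q)
        (algebraMap (AlgebraicClosure ℚ) ↥(FNbar (M * q)) (c / c₁)) := by
      rw [isGaussUnit_const_iff, map_div₀, hval]
      exact div_self ((Valuation.ne_zero_iff _).mpr hc₁0)
    have h3 := h2.mul h1
    have e : algebraMap (AlgebraicClosure ℚ) ↥(FNbar (M * q)) (c / c₁)
        * (algebraMap (AlgebraicClosure ℚ) ↥(FNbar (M * q)) c₁ * f)
        = algebraMap (AlgebraicClosure ℚ) ↥(FNbar (M * q)) c * f := by
      rw [← mul_assoc, ← map_mul, div_mul_cancel₀ c hc₁0]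
    rwa [e] at h3
  refine ⟨c, hc0, hcu0, ?_⟩
  intro y hy Q'
  have e : y = ⟨_, hcu.mem⟩ := by
    apply Subtype.ext
    apply Subtype.ext
    rw [hy, MulMemClass.coe_mul, MulMemClass.coe_mul, IntermediateField.coe_algebraMap_apply,
      IntermediateField.coe_algebraMap_apply, coe_betaUp, map_mul]
    congr 1
    rw [algebraMap_laurentSeries_eq_single, qExpand_single, mul_zero]
  rw [e]
  exact hQ Q'

end PushUp

section Core

variable {A : ValuationSubring (AlgebraicClosure ℚ)}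
variable {q M R r : ℕ} [NeZero (M * q)] [NeZero r] [NeZero (M * R * q)] [NeZero (M * q * r)]
variable {a b : ℤ} {hab : a * q + b * M = 1} {a' b' : ℤ}
  {hab' : a' * q + b' * ((M * R : ℕ) : ℤ) = 1} {hq : q.Prime}

include hab in
/-- **COMP-EIS at `p = 3`, strong form, at the level `M q`**, from COORD at `p = 3` at a level
`M R q`, `r ∣ R`, the descent to the level `M q r` and PUSH-NORM. -/
theorem compEisAt3S_core (hPN : Stmt_PushNorm) (hA : A.LiesOverPrime q) (hqM : ¬ q ∣ M)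
    (hr : r.Prime) (hrN : ¬ r ∣ M * q) (hr3 : r % 3 = 2) (hrR : r ∣ R)
    (hC : Stmt_CE_Coord 3 q (M * R) a' b' hab' hq)
    (hdesc : ∀ (y : ↥(gaussV A (M * R * q))) (y₀ : ↥(gaussV A (M * q * r))),
      (((y : ↥(gaussV A (M * R * q))) : ↥(FNbar (M * R * q))) :
          LaurentSeries (AlgebraicClosure ℚ)) =
        (((y₀ : ↥(gaussV A (M * q * r))) : ↥(FNbar (M * q * r))) :
          LaurentSeries (AlgebraicClosure ℚ)) →
      (∀ Q' : Place (kV A)
          ↥(redField A (FNbar (M * R * q)) (hasScale_laurentBaseChange A (M * R * q))),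
        (3 : ℤ) ∣ Q'.ord (gaussRes A (M * R * q) y)) →
      ∀ Q : Place (kV A)
          ↥(redField A (FNbar (M * q * r)) (hasScale_laurentBaseChange A (M * q * r))),
        (3 : ℤ) ∣ Q.ord (gaussRes A (M * q * r) y₀))
    (S : Finset ℕ) (t : ℕ → ℤ) (x : (jzModule (M * q) 3).J)
    (hfix : ∀ σ ∈ A.inertiaSubgroupIn ℚ, (jzModule (M * q) 3).gal σ x = x)
    (heig : ∀ ℓ : ℕ, ℓ.Prime → ℓ ∉ S → ¬ ℓ ∣ M * q → ℓ ≠ 3 →
      (jzModule (M * q) 3).T ℓ x = ((t ℓ : ℤ) : ZMod 3) • x)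
    (hrS : r ∉ S) (htr : ((t r : ℤ) : ZMod 3) ≠ 0) :
    Fin1 A (M * q) 3 (jzModule.pt (M * q) 3 x) := by
  haveI : Fact (Nat.Prime 3) := ⟨Nat.prime_three⟩
  have hr3' : r ≠ 3 := by
    rintro rfl
    omega
  have hle : M * q ∣ M * R * q := ⟨R, by ring⟩
  -- the point
  have hX0 : ((3 : ℕ) : ℤ) • jzModule.pt (M * q) 3 x = 0 := jzModule.pt_torsion (M * q) 3 x
  have hXfix : ∀ σ ∈ A.inertiaSubgroupIn ℚ,
      σ • jzModule.pt (M * q) 3 x = jzModule.pt (M * q) 3 x := by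
    intro σ hσ
    rw [← jzModule.pt_gal, hfix σ hσ]
  have hXT : heckeOperatorBar (M * q) ⟨r, hr⟩ (jzModule.pt (M * q) 3 x)
      = t r • jzModule.pt (M * q) 3 x := by
    rw [← jzModule.pt_T (M * q) 3 hr hrN, heig r hr hrS hrN hr3']
    exact coe_intCast_smul 3 (M * q) (t r) x
  obtain ⟨D, f, g, c, t₀, hf, hg, hc, hxD, hDf, hffix, hgfix, ht₀, hslope⟩ :=
    H9H.stmt_CE_Hecke q M a b hab hq A hA 3 Nat.prime_three ⟨r, hr⟩ hrN (t r) _ hX0 hXfix hXT
  -- slopes at the level `M R q`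
  have hf' : lift hle f ≠ 0 := (map_ne_zero _).mpr hf
  have hg' : lift hle g ≠ 0 := (map_ne_zero _).mpr hg
  have hf'fix : ∀ σ ∈ A.inertiaSubgroupIn ℚ, galF (M * R * q) σ • lift hle f = lift hle f :=
    fun σ hσ => galF_fixed_transfer (coe_lift hle f) σ (hffix σ hσ)
  have hg'fix : ∀ σ ∈ A.inertiaSubgroupIn ℚ, galF (M * R * q) σ • lift hle g = lift hle g :=
    fun σ hσ => galF_fixed_transfer (coe_lift hle g) σ (hgfix σ hσ)
  obtain ⟨kf, hkf'⟩ := exists_hasSlope_of_coord 3 hA hC hf' hf'fix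
  obtain ⟨kg, hkg'⟩ := exists_hasSlope_of_coord 3 hA hC hg' hg'fix
  have hkf : HasSlope A q M a b hab hq f kf :=
    hasSlope_transfer H80.stmt_CE_WUp (coe_lift _ f) hkf'
  have hkg : HasSlope A q M a b hab hq g kg :=
    hasSlope_transfer H80.stmt_CE_WUp (coe_lift _ g) hkg'
  -- the eigenvector equation on slopes
  have h1 := hslope kf hkf
  have h2 : HasSlope A q M a b hab hq
      (algebraMap (AlgebraicClosure ℚ) ↥(FNbar (M * q)) c * f ^ t₀ * g ^ 3)
      (0 + t₀ * kf + 3 * kg) := ((hasSlope_const hc).mul (hkf.pow t₀)).mul (hkg.pow 3)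
  have h3 := h1.unique hA h2
  have ht₀' : ((t₀ : ℤ) : ZMod 3) ≠ 0 := by
    rw [ht₀]
    exact htr
  have hnd : ¬ (3 : ℤ) ∣ (t₀ : ℤ) := fun hd =>
    ht₀' ((ZMod.intCast_zmod_eq_zero_iff_dvd _ 3).mpr (by exact_mod_cast hd))
  have hpp : Prime (3 : ℤ) := Int.prime_three
  have hr1 : (3 : ℤ) ∣ ((r : ℤ) + 1) := by
    have : (3 : ℕ) ∣ r + 1 := by omega
    exact_mod_cast this
  have h4 : (3 : ℤ) ∣ (t₀ : ℤ) * kf := by
    have e : (t₀ : ℤ) * kf = ((r : ℤ) + 1) * kf - 3 * kg := by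
      have h3' : (((⟨r, hr⟩ : Nat.Primes) : ℕ) + 1 : ℤ) * kf = 0 + t₀ * kf + 3 * kg := h3
      have h3'' : ((r : ℤ) + 1) * kf = 0 + t₀ * kf + 3 * kg := h3'
      linear_combination -h3''
    rw [e]
    exact dvd_sub (Dvd.dvd.mul_right hr1 _) (dvd_mul_right _ _)
  have h3k : (3 : ℤ) ∣ kf := (hpp.dvd_or_dvd h4).resolve_left hnd
  -- PUSH-UP
  have hdiv : ∀ P : Place (AlgebraicClosure ℚ) ↥(FNbar (M * q)), (3 : ℤ) ∣ P.ord f :=
    fun P => ⟨_, (hDf P).symm⟩
  obtain ⟨c₁, hc₁, hu, hup⟩ := pushUp_core (hab := hab) (hab' := hab') (hq := hq) hrR hA hC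
    hffix hdiv hkf h3k
  -- the level `M q r`
  have hβu := Fermat.Agent.S43.CompEis.H9.isGaussUnit_beta r A (M * q) _ hu
  obtain ⟨y, hy⟩ : ∃ y : ↥(gaussV A (M * R * q)),
      (((y : ↥(gaussV A (M * R * q))) : ↥(FNbar (M * R * q))) :
          LaurentSeries (AlgebraicClosure ℚ))
        = qExpand (AlgebraicClosure ℚ) r
          ((algebraMap (AlgebraicClosure ℚ) ↥(FNbar (M * q)) c₁ * f : ↥(FNbar (M * q))) :
            LaurentSeries (AlgebraicClosure ℚ)) :=
    ⟨⟨_, (isGaussUnit_betaUp q M R r hrR A hu).mem⟩, coe_betaUp q M R r hrR _⟩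
  have hQ'' := hdesc y ⟨_, hβu.mem⟩ (by rw [hy]; rfl) (hup y hy)
  -- PUSH-NORM
  have hD' : ∀ P : Place (AlgebraicClosure ℚ) ↥(FNbar (M * q)),
      (3 : ℤ) * (D : Divisor (AlgebraicClosure ℚ) ↥(FNbar (M * q))) P
        = P.ord (algebraMap (AlgebraicClosure ℚ) ↥(FNbar (M * q)) c₁ * f) := by
    intro P
    rw [Fermat.Agent.RED.H17.ord_algebraMap_mul P hc₁ f]
    exact hDf P
  have hXT' : heckeOperatorBar (M * q) ⟨r, hr⟩ (Pic0.mk D)
      = t r • (Pic0.mk D : JZero (M * q)) := by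
    rw [← hxD]
    exact hXT
  have hnt : ¬ (3 : ℤ) ∣ t r := fun hd =>
    htr ((ZMod.intCast_zmod_eq_zero_iff_dvd _ 3).mpr (by exact_mod_cast hd))
  have hQ := hPN q M r hq hqM hr hrN A hA ⟨_, hu.mem⟩ D (t r) hu.gaussRes_ne_zero hD' hXT' hnt
    hβu.mem hQ''
  exact ⟨D, ⟨_, hu.mem⟩, hxD, hu.gaussRes_ne_zero, hD', hQ⟩

end Core

/-- The divisibility of the orders of a reduced function does not depend on the way the level
is written. -/
theorem dvd_ord_congr (A : ValuationSubring (AlgebraicClosure ℚ)) {N₁ N₂ : ℕ} [NeZero N₁]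
    [NeZero N₂] (h : N₁ = N₂) (f₁ : ↥(gaussV A N₁)) (f₂ : ↥(gaussV A N₂))
    (hcoe : (((f₂ : ↥(gaussV A N₂)) : ↥(FNbar N₂)) : LaurentSeries (AlgebraicClosure ℚ)) =
      (((f₁ : ↥(gaussV A N₁)) : ↥(FNbar N₁)) : LaurentSeries (AlgebraicClosure ℚ)))
    (hQ : ∀ Q₂ : Place (kV A) ↥(redField A (FNbar N₂) (hasScale_laurentBaseChange A N₂)),
      (3 : ℤ) ∣ Q₂.ord (gaussRes A N₂ f₂)) :
    ∀ Q₁ : Place (kV A) ↥(redField A (FNbar N₁) (hasScale_laurentBaseChange A N₁)),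
      (3 : ℤ) ∣ Q₁.ord (gaussRes A N₁ f₁) := by
  subst h
  have e : f₁ = f₂ := Subtype.ext (Subtype.ext hcoe.symm)
  subst e
  exact hQ

theorem exists_bezout_cast {q M : ℕ} (hq : q.Prime) (hqM : ¬ q ∣ M) :
    ∃ a b : ℤ, a * q + b * ((M : ℕ) : ℤ) = 1 :=
  Nat.isCoprime_iff_coprime.2 ((Nat.Prime.coprime_iff_not_dvd hq).2 hqM)

/-- **COMP-EIS3, strong form**, from NE, DESC3 and PUSH-NORM. -/
theorem stmt_CompEis3S_of (hNE : Stmt_NE) (hD3 : Stmt_CE_Desc3) (hPN : Stmt_PushNorm) :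
    Stmt_CompEis3S := by
  intro N _ q hq hq3 hqN hq2 A hA S t x hfix heig hstrong
  obtain ⟨r, r', hr, -, -, h5, -, hr3, -, hrS, -, hrN, -, htr, -⟩ := hstrong
  obtain ⟨M, rfl⟩ : ∃ M, N = M * q := ⟨N / q, (Nat.div_mul_cancel hqN).symm⟩
  have hqM : ¬ q ∣ M := by
    rintro ⟨k, rfl⟩
    exact hq2 ⟨k, by ring⟩
  obtain ⟨a, b, hab⟩ := exists_bezout_cast hq hqM
  have hM0 : M ≠ 0 := fun h => NeZero.ne (M * q) (by rw [h, zero_mul])
  haveI : NeZero r := ⟨hr.ne_zero⟩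
  haveI : NeZero (M * q * r) := ⟨Nat.mul_ne_zero (NeZero.ne (M * q)) hr.ne_zero⟩
  have hrq : r ≠ q := by
    rintro rfl
    exact hrN (dvd_mul_left r M)
  have hqr : ¬ q ∣ r := fun h => hrq ((Nat.prime_dvd_prime_iff_eq hq hr).mp h).symm
  have hqMr : ¬ q ∣ M * r := by
    intro h
    rcases (Nat.Prime.dvd_mul hq).mp h with h | h
    · exact hqM h
    · exact hqr h
  by_cases ht : H91.TameAt (M * r) q
  · -- the level `M r q` is tame
    obtain ⟨a', b', hab'⟩ := exists_bezout_cast hq hqMr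
    haveI : NeZero (M * r * q) :=
      ⟨Nat.mul_ne_zero (Nat.mul_ne_zero hM0 hr.ne_zero) hq.ne_zero⟩
    have hC := stmt_CE_Coord3 hNE q (M * r) a' b' hab' hq hq3 hqMr ht r hr hr3
      (dvd_mul_left r M)
    refine compEisAt3S_core (R := r) (hab := hab) (hab' := hab') (hq := hq) hPN hA hqM hr hrN
      hr3 (dvd_refl r) hC ?_ S t x hfix heig hrS htr
    intro y y₀ hcoe hQ'
    exact dvd_ord_congr A (by ring) y₀ y hcoe hQ'
  · -- `q = 2`, `3 ∤ M r`: the level `M (r 3) q` is tame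
    have hq2' : q = 2 := by
      have h1 : ¬ 5 ≤ q := fun h => ht (Or.inl h)
      have h2 := hq.two_le
      have h4 : q ≠ 4 := by
        rintro rfl
        exact absurd hq (by decide)
      omega
    have h3Mr : ¬ 3 ∣ M * r := fun h => ht (Or.inr (Or.inr ⟨hq2', h⟩))
    have hq3' : ¬ q ∣ 3 := by
      rw [hq2']
      decide
    have hqMR : ¬ q ∣ M * (r * 3) := by
      intro h
      rw [← mul_assoc] at h
      rcases (Nat.Prime.dvd_mul hq).mp h with h | h
      · exact hqMr h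
      · exact hq3' h
    obtain ⟨a', b', hab'⟩ := exists_bezout_cast hq hqMR
    haveI : NeZero (M * (r * 3) * q) :=
      ⟨Nat.mul_ne_zero (Nat.mul_ne_zero hM0 (Nat.mul_ne_zero hr.ne_zero (by norm_num)))
        hq.ne_zero⟩
    have ht' : H91.TameAt (M * (r * 3)) q :=
      Or.inr (Or.inr ⟨hq2', ⟨M * r, by ring⟩⟩)
    have hC := stmt_CE_Coord3 hNE q (M * (r * 3)) a' b' hab' hq hq3 hqMR ht' r hr hr3
      (Dvd.dvd.mul_left (dvd_mul_right r 3) M)
    refine compEisAt3S_core (R := r * 3) (hab := hab) (hab' := hab') (hq := hq) hPN hA hqM hr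
      hrN hr3 (dvd_mul_right r 3) hC ?_ S t x hfix heig hrS htr
    intro y y₀ hcoe hQ'
    have h3N : ¬ 3 ∣ M * q * r := by
      intro h
      have h' : 3 ∣ M * r * q := by
        rw [show M * r * q = M * q * r by ring]
        exact h
      rcases (Nat.Prime.dvd_mul Nat.prime_three).mp h' with h | h
      · exact h3Mr h
      · rw [hq2'] at h
        exact absurd h (by decide)
    have hqq : ¬ q ^ 2 ∣ M * q * r := by
      rintro ⟨k, hk⟩
      apply hqMr
      refine ⟨k, ?_⟩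
      have hq0 : 0 < q := hq.pos
      apply Nat.eq_of_mul_eq_mul_left hq0
      rw [show q * (M * r) = M * q * r by ring, hk]
      ring
    exact hD3 q hq hq3 (M * q * r) (M * (r * 3) * q) (by ring) h3N hqq A hA y₀ y hcoe hQ'

end Fermat.Agent.S38.P3.H60
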